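import Fermat.Agent.SelbergPNT.Criterion
import Fermat.Agent.Root.SummaryPrimeNumberTheorem

/-!
# The sharp cut-off when `|Λ_F| ≤ C Λ`

Smooth cut-offs squeeze the indicator of `(0, 1]` by the prime number theorem; conversely partial
summation gives every smooth cut-off from the sharp one.
-/

set_option autoImplicit false

noncomputable section

open Complex MeasureTheory Filter Topology Set
open scoped Real ContDiff ArithmeticFunction.vonMangoldt
open FA.SelbergLandau (lamF)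

namespace FA.SelbergPNT

variable {a : ℕ → ℂ} {φ : ℝ → ℂ} {C : ℝ} {M : ℂ}

/-- `∑_{n ≤ x} Λ_F n`. -/
def psiSum (a : ℕ → ℂ) (x : ℝ) : ℂ := ∑ n ∈ Finset.Ioc 0 ⌊x⌋₊, lamF a n

theorem mellin_one (hφ : IsCutoff φ) : mellin φ 1 = ∫ t : ℝ, φ t := by
  rw [mellin]
  simp only [sub_self, cpow_zero, one_smul]
  exact setIntegral_eq_integral_of_forall_compl_eq_zero fun t ht =>
    hφ.eq_zero_of_nonpos (not_lt.1 ht)

theorem norm_psiSum_le (hC : ∀ n, ‖lamF a n‖ ≤ C * Λ n) (x : ℝ) :
    ‖psiSum a x‖ ≤ C * Chebyshev.psi x := by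
  rw [psiSum, Chebyshev.psi, Finset.mul_sum]
  exact norm_sum_le_of_le _ fun n _ => hC n

/-- A smooth minorant of the indicator of `(0, 1]`. -/
theorem exists_cutoff {δ : ℝ} (hδ : 0 < δ) (hδ1 : δ < 1 / 4) :
    ∃ f : ℝ → ℝ, IsCutoff (fun y => (f y : ℂ)) ∧ (∀ y, 0 ≤ f y) ∧ (∀ y, f y ≤ 1) ∧
      (∀ y, y ≤ δ ∨ 1 ≤ y → f y = 0) ∧ (∀ y, 2 * δ ≤ y → y ≤ 1 - δ → f y = 1) ∧
      1 - 3 * δ ≤ ∫ y, f y ∧ ∫ y, f y ≤ 1 := by
  obtain ⟨g, hin, hout⟩ : ∃ g : ContDiffBump ((1 + δ) / 2), g.rIn = (1 - δ) / 2 - δ / 2 ∧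
      g.rOut = (1 - δ) / 2 :=
    ⟨⟨(1 - δ) / 2 - δ / 2, (1 - δ) / 2, by linarith, by linarith⟩, rfl, rfl⟩
  have hsupp : ∀ y, y ≤ δ ∨ 1 ≤ y → g y = 0 := fun y hy => by
    refine g.zero_of_le_dist ?_
    rw [hout, Real.dist_eq]
    rcases hy with hy | hy
    · exact le_trans (by linarith) (neg_le_abs _)
    · exact le_trans (by linarith) (le_abs_self _)
  have hone : ∀ y, 2 * δ ≤ y → y ≤ 1 - δ → g y = 1 := fun y h1 h2 => by
    refine g.one_of_mem_closedBall ?_
    rw [hin, Metric.mem_closedBall, Real.dist_eq, abs_le]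
    constructor <;> linarith
  have hi : Integrable fun y => g y :=
    g.continuous.integrable_of_hasCompactSupport g.hasCompactSupport
  refine ⟨g, ⟨Complex.ofRealCLM.contDiff.comp g.contDiff,
    g.hasCompactSupport.comp_left ofReal_zero, (tsupport_comp_subset ofReal_zero _).trans ?_⟩,
    fun y => g.nonneg, fun y => g.le_one, hsupp, hone, ?_, ?_⟩
  · rw [g.tsupport_eq, hout]
    intro y hy
    rw [Metric.mem_closedBall, Real.dist_eq, abs_le] at hy
    exact mem_Ioi.2 (by linarith [hy.1])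
  · have h1 : ∫ y, (Icc (2 * δ) (1 - δ)).indicator (fun _ => (1 : ℝ)) y = 1 - 3 * δ := by
      rw [integral_indicator_const _ measurableSet_Icc, smul_eq_mul, mul_one,
        Real.volume_real_Icc_of_le (by linarith)]
      ring
    rw [← h1]
    refine integral_mono (((integrableOn_const measure_Icc_lt_top.ne).integrable_indicator
      measurableSet_Icc)) hi fun y => ?_
    by_cases hy : y ∈ Icc (2 * δ) (1 - δ)
    · rw [indicator_of_mem hy, hone y hy.1 hy.2]
    · rw [indicator_of_notMem hy]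
      exact g.nonneg
  · have h1 : ∫ y, (Icc (0 : ℝ) 1).indicator (fun _ => (1 : ℝ)) y = 1 := by
      rw [integral_indicator_const _ measurableSet_Icc, smul_eq_mul, mul_one,
        Real.volume_real_Icc_of_le zero_le_one]
      ring
    refine le_of_le_of_eq ?_ h1
    refine integral_mono hi (((integrableOn_const measure_Icc_lt_top.ne).integrable_indicator
      measurableSet_Icc)) fun y => ?_
    by_cases hy : y ∈ Icc (0 : ℝ) 1
    · rw [indicator_of_mem hy]
      exact g.le_one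
    · rw [indicator_of_notMem hy, hsupp y ?_]
      rw [mem_Icc, not_and_or, not_le, not_le] at hy
      rcases hy with hy | hy
      · exact Or.inl (by linarith)
      · exact Or.inr hy.le

theorem tendsto_psi_mul {c : ℝ} (hc : 0 < c) :
    Tendsto (fun x : ℝ => Chebyshev.psi (c * x) / x) atTop (𝓝 c) := by
  have h := (FA.PNT.Summary.tendsto_psi.comp (tendsto_id.const_mul_atTop hc)).mul_const c
  rw [one_mul] at h
  refine h.congr' ?_
  filter_upwards [eventually_gt_atTop 0] with x hx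
  simp only [Function.comp_apply, id]
  field_simp

theorem norm_psiSum_sub_smoothSum_le (hC : ∀ n, ‖lamF a n‖ ≤ C * Λ n) (hC0 : 0 ≤ C) {δ : ℝ}
    (hδ : 0 < δ) {f : ℝ → ℝ} (h0 : ∀ y, 0 ≤ f y) (h1 : ∀ y, f y ≤ 1)
    (hsupp : ∀ y, y ≤ δ ∨ 1 ≤ y → f y = 0) (hone : ∀ y, 2 * δ ≤ y → y ≤ 1 - δ → f y = 1)
    {x : ℝ} (hx : 0 < x) :
    ‖psiSum a x - smoothSum a (fun y => (f y : ℂ)) x‖ ≤
      C * (Chebyshev.psi (2 * δ * x) +
        (Chebyshev.psi x - Chebyshev.psi ((1 - δ) * x))) := by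
  classical
  have hfin : smoothSum a (fun y => (f y : ℂ)) x =
      ∑ n ∈ Finset.Ioc 0 ⌊x⌋₊, lamF a n * (f (n / x) : ℂ) := by
    refine tsum_eq_sum fun n hn => ?_
    rcases eq_or_ne n 0 with rfl | hn0
    · simp
    rw [Finset.mem_Ioc, not_and, not_le] at hn
    have : (1 : ℝ) ≤ n / x := by
      rw [one_le_div₀ hx]
      exact (Nat.lt_of_floor_lt (hn (Nat.pos_of_ne_zero hn0))).le
    simp [hsupp _ (Or.inr this)]
  obtain ⟨A, hA⟩ : ∃ A, A = Finset.Ioc 0 ⌊2 * δ * x⌋₊ := ⟨_, rfl⟩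
  obtain ⟨B, hB⟩ : ∃ B, B = Finset.Ioc 0 ⌊x⌋₊ \ Finset.Ioc 0 ⌊(1 - δ) * x⌋₊ := ⟨_, rfl⟩
  have hsub : Finset.Ioc 0 ⌊(1 - δ) * x⌋₊ ⊆ Finset.Ioc 0 ⌊x⌋₊ :=
    Finset.Ioc_subset_Ioc le_rfl (Nat.floor_mono (by nlinarith))
  have hpsi : Chebyshev.psi x - Chebyshev.psi ((1 - δ) * x) = ∑ n ∈ B, Λ n := by
    rw [Chebyshev.psi, Chebyshev.psi, hB, ← Finset.sum_sdiff hsub]
    ring
  rw [hfin, psiSum, ← Finset.sum_sub_distrib, hpsi, Chebyshev.psi, ← hA]
  have hpt : ∀ n ∈ Finset.Ioc 0 ⌊x⌋₊, ‖lamF a n - lamF a n * (f (n / x) : ℂ)‖ ≤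
      (if n ∈ A then C * Λ n else 0) + (if n ∈ B then C * Λ n else 0) := fun n hn => by
    have hn' := Finset.mem_Ioc.1 hn
    have hΛ : 0 ≤ C * Λ n := mul_nonneg hC0 ArithmeticFunction.vonMangoldt_nonneg
    have hle : ‖lamF a n - lamF a n * (f (n / x) : ℂ)‖ ≤ C * Λ n := by
      rw [← mul_one_sub, norm_mul, show (1 : ℂ) - (f (n / x) : ℂ) = ((1 - f (n / x) : ℝ) : ℂ) by
        push_cast; ring, Complex.norm_real, Real.norm_of_nonneg (by linarith [h1 (n / x)])]
      exact (mul_le_of_le_one_right (norm_nonneg _) (by linarith [h0 (n / x)])).trans (hC n)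
    by_cases hA' : n ∈ A
    · rw [if_pos hA']
      exact hle.trans (le_add_of_nonneg_right (by split_ifs <;> linarith))
    rw [if_neg hA', zero_add]
    by_cases hB' : n ∈ B
    · rwa [if_pos hB']
    rw [if_neg hB', hone]
    · simp
    · rw [le_div_iff₀ hx]
      rw [hA, Finset.mem_Ioc, not_and, not_le] at hA'
      exact (Nat.lt_of_floor_lt (hA' hn'.1)).le
    · rw [div_le_iff₀ hx]
      rw [hB, Finset.mem_sdiff, not_and, not_not] at hB'
      exact (Nat.le_floor_iff' (Nat.pos_iff_ne_zero.1 hn'.1)).1 (Finset.mem_Ioc.1 (hB' hn)).2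
  refine (norm_sum_le_of_le _ hpt).trans (le_of_le_of_eq (b := ∑ n ∈ A, C * Λ n + ∑ n ∈ B, C * Λ n)
    ?_ (by rw [← Finset.mul_sum, ← Finset.mul_sum, mul_add]))
  rw [Finset.sum_add_distrib, Finset.sum_ite_mem, Finset.sum_ite_mem]
  have hnn : ∀ n : ℕ, 0 ≤ C * Λ n := fun n => mul_nonneg hC0 ArithmeticFunction.vonMangoldt_nonneg
  exact add_le_add
    (Finset.sum_le_sum_of_subset_of_nonneg Finset.inter_subset_right fun n _ _ => hnn n)
    (Finset.sum_le_sum_of_subset_of_nonneg Finset.inter_subset_right fun n _ _ => hnn n)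

theorem nonneg_of_bound (hC : ∀ n, ‖lamF a n‖ ≤ C * Λ n) : 0 ≤ C := by
  have h := (norm_nonneg _).trans (hC 2)
  rw [ArithmeticFunction.vonMangoldt_apply_prime Nat.prime_two] at h
  exact nonneg_of_mul_nonneg_left h (Real.log_pos (by norm_num))

/-- **From smooth cut-offs to the sharp one.** -/
theorem tendsto_psiSum (hC : ∀ n, ‖lamF a n‖ ≤ C * Λ n)
    (h : ∀ φ, IsCutoff φ → Tendsto (fun x : ℝ => smoothSum a φ x / x) atTop (𝓝 (M * mellin φ 1))) :
    Tendsto (fun x : ℝ => psiSum a x / x) atTop (𝓝 M) := by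
  have hC0 := nonneg_of_bound hC
  rw [Metric.tendsto_nhds]
  intro ε hε
  obtain ⟨δ, hδd⟩ : ∃ δ, δ = min (1 / 8) (ε / (12 * (C + ‖M‖ + 1))) := ⟨_, rfl⟩
  have hδ : 0 < δ := hδd ▸ lt_min (by norm_num) (by positivity)
  have hδ1 : δ < 1 / 4 := hδd ▸ (min_le_left _ _).trans_lt (by norm_num)
  have hδε : 12 * δ * (C + ‖M‖ + 1) ≤ ε := by
    have : δ ≤ ε / (12 * (C + ‖M‖ + 1)) := hδd ▸ min_le_right _ _
    rw [le_div_iff₀ (by positivity)] at this
    linarith
  obtain ⟨f, hf, h0, h1, hsupp, hone, hlo, hhi⟩ := exists_cutoff hδ hδ1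
  have hlim := h _ hf
  rw [mellin_one hf, integral_complex_ofReal] at hlim
  have hp : Tendsto (fun x : ℝ => C * (Chebyshev.psi (2 * δ * x) / x +
      (Chebyshev.psi (1 * x) / x - Chebyshev.psi ((1 - δ) * x) / x))) atTop
      (𝓝 (C * (2 * δ + (1 - (1 - δ))))) :=
    (((tendsto_psi_mul (by positivity)).add ((tendsto_psi_mul one_pos).sub
      (tendsto_psi_mul (by linarith)))).const_mul C)
  filter_upwards [Metric.tendsto_nhds.1 hlim (ε / 4) (by positivity),
    hp.eventually (eventually_lt_nhds (show C * (2 * δ + (1 - (1 - δ))) < ε / 2 by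
      nlinarith [mul_nonneg hδ.le (norm_nonneg M)])), eventually_gt_atTop 0] with x hx1 hx2 hx
  rw [dist_eq_norm] at hx1 ⊢
  have hb := norm_psiSum_sub_smoothSum_le hC hC0 hδ h0 h1 hsupp hone hx
  have h3 : ‖psiSum a x / x - smoothSum a (fun y => (f y : ℂ)) x / x‖ < ε / 2 := by
    rw [← sub_div, norm_div, Complex.norm_real, Real.norm_of_nonneg hx.le, div_lt_iff₀ hx]
    refine hb.trans_lt ?_
    rw [← div_lt_iff₀ hx]
    refine lt_of_eq_of_lt ?_ hx2
    rw [one_mul]
    ring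
  have h4 : ‖M * ((∫ y, f y : ℝ) : ℂ) - M‖ ≤ ‖M‖ * (3 * δ) := by
    rw [show M * ((∫ y, f y : ℝ) : ℂ) - M = M * (((∫ y, f y) - 1 : ℝ) : ℂ) by push_cast; ring,
      norm_mul, Complex.norm_real]
    exact mul_le_mul_of_nonneg_left (by rw [Real.norm_eq_abs, abs_le]; constructor <;> linarith)
      (norm_nonneg _)
  have h5 : ‖M‖ * (3 * δ) ≤ ε / 4 := by nlinarith [mul_nonneg hδ.le hC0]
  calc ‖psiSum a x / x - M‖
      = ‖(psiSum a x / x - smoothSum a (fun y => (f y : ℂ)) x / x) +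
          ((smoothSum a (fun y => (f y : ℂ)) x / x - M * ((∫ y, f y : ℝ) : ℂ)) +
            (M * ((∫ y, f y : ℝ) : ℂ) - M))‖ := by ring_nf
    _ ≤ _ + (_ + _) := (norm_add_le _ _).trans (add_le_add le_rfl (norm_add_le _ _))
    _ < ε := by linarith

theorem indicator_eq_ite (x : ℝ) (hx : 0 < x) (n : ℕ) (hn : n ≠ 0) (t : ℝ) :
    (Ici ((n : ℝ) / x)).indicator (fun _ => (1 : ℂ)) t = if n ≤ ⌊t * x⌋₊ then 1 else 0 := by
  rcases le_or_gt t 0 with ht | ht
  · rw [indicator_of_notMem, if_neg]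
    · rw [Nat.floor_of_nonpos (mul_nonpos_of_nonpos_of_nonneg ht hx.le)]
      omega
    · rw [mem_Ici, not_le]
      exact ht.trans_lt (div_pos (Nat.cast_pos.2 (Nat.pos_of_ne_zero hn)) hx)
  · simp only [indicator, mem_Ici, div_le_iff₀ hx, Nat.le_floor_iff' hn]

/-- **Partial summation.** -/
theorem smoothSum_eq_integral (hφ : IsCutoff φ) {x : ℝ} (hx : 0 < x) :
    smoothSum a φ x = -∫ t : ℝ, psiSum a (t * x) * deriv φ t := by
  classical
  obtain ⟨c, b, hc, hcb, hz⟩ := hφ.exists_bounds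
  have hb : 0 < b := hc.trans_le hcb
  have hzb : ∀ t, b + 1 < t → deriv φ t = 0 := fun t ht => by
    refine HasDerivAt.deriv ((hasDerivAt_const t (0 : ℂ)).congr_of_eventuallyEq ?_)
    filter_upwards [(isOpen_lt continuous_const continuous_id).mem_nhds ht] with y hy
    exact hz y (Or.inr ((lt_add_one b).trans hy))
  obtain ⟨N, hN⟩ : ∃ N, N = ⌊(b + 1) * x⌋₊ := ⟨_, rfl⟩
  have hfin : smoothSum a φ x = ∑ n ∈ Finset.Ioc 0 N, lamF a n * φ (n / x) := by
    refine tsum_eq_sum fun n hn => ?_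
    rcases eq_or_ne n 0 with rfl | hn0
    · simp
    rw [Finset.mem_Ioc, not_and, not_le, hN] at hn
    have h2 : b < n / x := by
      rw [lt_div_iff₀ hx]
      nlinarith [Nat.lt_of_floor_lt (hn (Nat.pos_of_ne_zero hn0))]
    rw [hz _ (Or.inr h2), mul_zero]
  have hd : Continuous (deriv φ) := hφ.1.continuous_deriv (by norm_num)
  have hdi : Integrable (deriv φ) := hd.integrable_of_hasCompactSupport hφ.2.1.deriv
  have hpt : ∀ t : ℝ, psiSum a (t * x) * deriv φ t = ∑ n ∈ Finset.Ioc 0 N,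
      lamF a n * (Ici ((n : ℝ) / x)).indicator (deriv φ) t := fun t => by
    by_cases ht : b + 1 < t
    · simp [indicator, hzb t ht]
    have hsub : Finset.Ioc 0 ⌊t * x⌋₊ = (Finset.Ioc 0 N).filter fun n => n ≤ ⌊t * x⌋₊ := by
      ext n
      simp only [Finset.mem_Ioc, Finset.mem_filter]
      refine ⟨fun h => ⟨⟨h.1, h.2.trans ?_⟩, h.2⟩, fun h => ⟨h.1.1, h.2⟩⟩
      exact hN ▸ Nat.floor_mono (mul_le_mul_of_nonneg_right (not_lt.1 ht) hx.le)
    rw [psiSum, hsub, Finset.sum_filter, Finset.sum_mul]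
    refine Finset.sum_congr rfl fun n hn => ?_
    have hn0 : n ≠ 0 := (Finset.mem_Ioc.1 hn).1.ne'
    rw [show (Ici ((n : ℝ) / x)).indicator (deriv φ) t =
      (Ici ((n : ℝ) / x)).indicator (fun _ => (1 : ℂ)) t * deriv φ t by simp [indicator],
      indicator_eq_ite x hx n hn0]
    split_ifs <;> simp
  rw [integral_congr_ae (Eventually.of_forall hpt),
    integral_finsetSum _ fun n _ => ((hdi.indicator measurableSet_Ici).const_mul _),
    ← Finset.sum_neg_distrib, hfin]
  refine Finset.sum_congr rfl fun n _ => ?_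
  rw [integral_const_mul, integral_indicator measurableSet_Ici, integral_Ici_eq_integral_Ioi,
    HasCompactSupport.integral_Ioi_deriv_eq (hφ.1.of_le (by norm_num)) hφ.2.1]
  ring

/-- **From the sharp cut-off to smooth ones.** -/
theorem tendsto_smoothSum (hC : ∀ n, ‖lamF a n‖ ≤ C * Λ n)
    (h : Tendsto (fun x : ℝ => psiSum a x / x) atTop (𝓝 M)) (hφ : IsCutoff φ) :
    Tendsto (fun x : ℝ => smoothSum a φ x / x) atTop (𝓝 (M * mellin φ 1)) := by
  have hC0 := nonneg_of_bound hC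
  have hd : Continuous (deriv φ) := hφ.1.continuous_deriv (by norm_num)
  have hmeas : ∀ x : ℝ, Measurable fun t : ℝ => psiSum a (t * x) := fun x =>
    (measurable_from_nat (f := fun k : ℕ => ∑ n ∈ Finset.Ioc 0 k, lamF a n)).comp
      (Nat.measurable_floor.comp (measurable_id.mul_const x))
  have hlim : Tendsto (fun x : ℝ => ∫ t : ℝ, psiSum a (t * x) / x * deriv φ t) atTop
      (𝓝 (∫ t : ℝ, M * ((max t 0 : ℝ) : ℂ) * deriv φ t)) := by
    refine tendsto_integral_filter_of_dominated_convergence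
      (fun t => C * ((Real.log 4 + 4) * |t|) * ‖deriv φ t‖)
      (Eventually.of_forall fun x =>
        (((hmeas x).div_const _).mul hd.measurable).aestronglyMeasurable)
      ?_ ((by fun_prop : Continuous fun t : ℝ => C * ((Real.log 4 + 4) * |t|) * ‖deriv φ t‖
        ).integrable_of_hasCompactSupport hφ.2.1.deriv.norm.mul_left)
      (Eventually.of_forall fun t => ?_)
    · filter_upwards [eventually_gt_atTop 0] with x hx
      refine Eventually.of_forall fun t => ?_
      rw [norm_mul, norm_div, Complex.norm_real, Real.norm_of_nonneg hx.le]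
      refine mul_le_mul_of_nonneg_right ?_ (norm_nonneg _)
      rw [div_le_iff₀ hx]
      refine (norm_psiSum_le hC _).trans ?_
      rw [mul_assoc C]
      refine mul_le_mul_of_nonneg_left ?_ hC0
      rcases le_or_gt t 0 with ht | ht
      · rw [Chebyshev.psi_eq_zero_of_lt_two (by nlinarith)]
        have : 0 ≤ Real.log 4 := Real.log_nonneg (by norm_num)
        positivity
      · rw [abs_of_pos ht, mul_assoc]
        exact Chebyshev.psi_le_const_mul_self (by positivity)
    · refine Tendsto.mul_const _ ?_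
      rcases le_or_gt t 0 with ht | ht
      · rw [max_eq_right ht, ofReal_zero, mul_zero]
        refine tendsto_const_nhds.congr' ?_
        filter_upwards [eventually_gt_atTop 0] with x hx
        simp [psiSum, Nat.floor_of_nonpos (mul_nonpos_of_nonpos_of_nonneg ht hx.le)]
      · rw [max_eq_left ht.le]
        refine ((h.comp (tendsto_id.const_mul_atTop ht)).mul_const (t : ℂ)).congr' ?_
        filter_upwards [eventually_gt_atTop 0] with x hx
        have htc : (t : ℂ) ≠ 0 := ofReal_ne_zero.2 ht.ne'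
        simp only [Function.comp_apply, id, ofReal_mul]
        field_simp
  have hparts : ∫ t : ℝ, M * ((max t 0 : ℝ) : ℂ) * deriv φ t = -(M * mellin φ 1) := by
    have hzero : ∀ t : ℝ, t ≤ 0 → deriv φ t = 0 := fun t ht => by
      obtain ⟨c, b, hc, -, hz⟩ := hφ.exists_bounds
      refine HasDerivAt.deriv ((hasDerivAt_const t (0 : ℂ)).congr_of_eventuallyEq ?_)
      filter_upwards [(isOpen_lt continuous_id continuous_const).mem_nhds (ht.trans_lt hc)]
        with y hy
      exact hz y (Or.inl hy)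
    have e : ∀ t : ℝ, M * ((max t 0 : ℝ) : ℂ) * deriv φ t = M * ((t : ℂ) * deriv φ t) := fun t => by
      rcases le_or_gt t 0 with ht | ht
      · simp [hzero t ht]
      · rw [max_eq_left ht.le, mul_assoc]
    rw [integral_congr_ae (Eventually.of_forall e), integral_const_mul, mellin_one hφ,
      integral_mul_deriv_eq_deriv_mul_of_integrable (u := fun t : ℝ => (t : ℂ))
        (u' := fun _ => (1 : ℂ)) (v := φ) (v' := deriv φ)
        (fun t _ => by simpa using (hasDerivAt_id' t).ofReal_comp)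
        (fun t _ => (hφ.1.differentiable (by norm_num) t).hasDerivAt)
        ((Complex.continuous_ofReal.mul hd).integrable_of_hasCompactSupport
          hφ.2.1.deriv.mul_left)
        ((continuous_const.mul hφ.1.continuous).integrable_of_hasCompactSupport hφ.2.1.mul_left)
        ((Complex.continuous_ofReal.mul hφ.1.continuous).integrable_of_hasCompactSupport
          hφ.2.1.mul_left)]
    simp
  rw [hparts] at hlim
  have := hlim.neg
  rw [neg_neg] at this
  refine this.congr' ?_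
  filter_upwards [eventually_gt_atTop 0] with x hx
  rw [smoothSum_eq_integral hφ hx, neg_div, ← integral_div]
  exact congrArg Neg.neg (integral_congr_ae (Eventually.of_forall fun t => by ring))

theorem tendsto_psiSum_iff (hC : ∀ n, ‖lamF a n‖ ≤ C * Λ n) :
    Tendsto (fun x : ℝ => psiSum a x / x) atTop (𝓝 M) ↔ ∀ φ, IsCutoff φ →
      Tendsto (fun x : ℝ => smoothSum a φ x / x) atTop (𝓝 (M * mellin φ 1)) :=
  ⟨fun h _ hφ => tendsto_smoothSum hC h hφ, tendsto_psiSum hC⟩

end FA.SelbergPNT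

end
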