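import Fermat.Agent.SelbergWeil.Positivity
import Fermat.Agent.TwistedMoment.Stirling

/-!
# Weil's functional is positive on short windows (Yoshida)

On a short window the primes are absent and the transform of `g` has little mass at low heights,
where the weight is bounded below; elsewhere the weight is at least `1` when `d > 0`.
-/

set_option autoImplicit false

noncomputable section

open Complex MeasureTheory Filter Topology Set
open scoped Real ComplexConjugate
open FA.WeilExplicit (IsTest testTransform)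
open FA.DegreeGap (HasFunctionalEquation degree)
open FA.SelbergClass (HasEulerProduct)
open FA.SelbergWeil

namespace FA.SelbergPNT

variable {a : ℕ → ℂ} {m : ℕ} {E : ℂ → ℂ} {r : ℕ} {lam : Fin r → ℝ} {mu : Fin r → ℂ} {Q : ℝ}
  {omega : ℂ} {g : ℝ → ℂ}

theorem continuous_archWeightF (h : HasFunctionalEquation a m E lam mu Q omega) :
    Continuous (archWeightF lam mu Q) := by
  have hk := continuous_halfKernel (m := 0) (Q := Q) h.lam_pos h.mu_re
  have h1 : ∀ t, archWeightF lam mu Q t =
      (halfKernel 0 lam mu Q t + conj (halfKernel 0 lam mu Q t)).re := fun t => by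
    rw [halfKernel, halfKernel_add_conj h.Q_pos, ofReal_re]
  rw [show archWeightF lam mu Q = _ from funext h1]
  exact continuous_re.comp (hk.add (continuous_conj.comp hk))

/-- **The weight tends to infinity.** -/
theorem exists_weight_ge (h : HasFunctionalEquation a m E lam mu Q omega) (hd : 0 < degree lam)
    (M : ℝ) : ∃ T : ℝ, 1 ≤ T ∧ ∀ t : ℝ, T ≤ |t| → M ≤ archWeightF lam mu Q t := by
  have hr : 0 < r := by
    rcases Nat.eq_zero_or_pos r with rfl | hr
    · simp [degree] at hd
    · exact hr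
  obtain ⟨j₀⟩ : Nonempty (Fin r) := ⟨⟨0, hr⟩⟩
  have hev : ∀ j, ∀ c : ℝ, ∀ᶠ s : ℝ in atTop, ∀ t : ℝ, s ≤ |t| →
      c ≤ (digamma ((lam j : ℂ) * (1 / 2 + (t : ℂ) * I) + mu j)).re := fun j c => by
    have hl := h.lam_pos j
    filter_upwards [eventually_ge_atTop ((Real.exp (c + 5 / 2) + 2 + |(mu j).im|) / lam j)]
      with s hs t ht
    obtain ⟨z, hz⟩ : ∃ z, z = (lam j : ℂ) * (1 / 2 + (t : ℂ) * I) + mu j := ⟨_, rfl⟩
    have hre : 0 < z.re := hz ▸ re_arg_pos h.lam_pos h.mu_re (by simp) j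
    have him : Real.exp (c + 5 / 2) + 2 ≤ |z.im| := by
      have e : z.im = lam j * t + (mu j).im := by simp [hz]
      have h1 : |lam j * t| ≤ |lam j * t + (mu j).im| + |(mu j).im| := by
        simpa using abs_sub (lam j * t + (mu j).im) (mu j).im
      rw [div_le_iff₀ hl] at hs
      rw [abs_mul, abs_of_pos hl] at h1
      rw [e]
      nlinarith
    have h2 : 2 ≤ |z.im| := le_trans (by linarith [Real.exp_pos (c + 5 / 2)]) him
    have h3 := FA.TwistedMoment.norm_digamma_sub_clog_le hre h2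
    rw [← logDeriv_apply, ← digamma_def] at h3
    have h4 : 5 / |z.im| ≤ 5 / 2 := div_le_div_of_nonneg_left (by norm_num) two_pos h2
    have h5 : c + 5 / 2 ≤ (Complex.log z).re := by
      rw [Complex.log_re]
      rw [Real.le_log_iff_exp_le (norm_pos_iff.2 fun e => by rw [e, zero_re] at hre; linarith)]
      linarith [abs_im_le_norm z]
    have h6 := (abs_le.1 ((abs_re_le_norm _).trans (h3.trans h4))).1
    rw [sub_re] at h6
    rw [← hz]
    linarith
  obtain ⟨c₀, hc₀⟩ : ∃ c₀, c₀ = (|M| + 2 * |Real.log Q|) / (2 * lam j₀) := ⟨_, rfl⟩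
  obtain ⟨T, hT⟩ := ((eventually_all.2 fun j => hev j (if j = j₀ then c₀ else 0)).and
    (eventually_ge_atTop 1)).exists
  refine ⟨T, hT.2, fun t ht => ?_⟩
  rw [archWeightF]
  have hsum : 2 * lam j₀ * c₀ ≤
      ∑ j, 2 * lam j * (digamma ((lam j : ℂ) * (1 / 2 + (t : ℂ) * I) + mu j)).re := by
    refine le_trans ?_ (Finset.sum_le_sum (f := fun j => 2 * lam j * (if j = j₀ then c₀ else 0))
      fun j _ => mul_le_mul_of_nonneg_left (hT.1 j t ht) (by linarith [h.lam_pos j]))
    simp
  rw [hc₀, mul_div_cancel₀ _ (by linarith [h.lam_pos j₀])] at hsum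
  linarith [le_abs_self M, neg_abs_le (Real.log Q)]

theorem sq_integral_norm_le (h : IsTest g) {c η : ℝ} (hη : 0 < η)
    (hsupp : ∀ v : ℝ, c + η < v ∨ v < c → g v = 0) :
    (∫ u : ℝ, ‖g u‖) ^ 2 ≤ η * ∫ u : ℝ, ‖g u‖ ^ 2 := by
  obtain ⟨l, hl⟩ : ∃ l, l = (∫ u : ℝ, ‖g u‖) / η := ⟨_, rfl⟩
  have h1 : Integrable fun u => ‖g u‖ :=
    (h.continuous.integrable_of_hasCompactSupport h.2).norm
  have h2 : Integrable fun u => ‖g u‖ ^ 2 :=
    ((continuous_pow 2).comp h.continuous.norm).integrable_of_hasCompactSupport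
      (h.2.norm.comp_left (g := fun x : ℝ => x ^ 2) (by norm_num))
  have h3 : Integrable ((Icc c (c + η)).indicator fun _ : ℝ => l ^ 2) :=
    (integrableOn_const measure_Icc_lt_top.ne).integrable_indicator measurableSet_Icc
  have key : (0 : ℝ) ≤ ∫ u : ℝ,
      (‖g u‖ ^ 2 - 2 * l * ‖g u‖ + (Icc c (c + η)).indicator (fun _ => l ^ 2) u) := by
    refine integral_nonneg fun u => ?_
    simp only [Pi.zero_apply]
    by_cases hu : u ∈ Icc c (c + η)
    · rw [indicator_of_mem hu]
      nlinarith [sq_nonneg (‖g u‖ - l)]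
    · rw [indicator_of_notMem hu]
      rw [mem_Icc, not_and_or, not_le, not_le] at hu
      rw [hsupp u hu.symm]
      simp
  rw [integral_add (h2.sub' (h1.const_mul _)) h3, integral_sub h2 (h1.const_mul _),
    integral_const_mul, integral_indicator_const _ measurableSet_Icc,
    Real.volume_real_Icc_of_le (by linarith), add_sub_cancel_left, smul_eq_mul, hl] at key
  field_simp at key
  nlinarith

theorem norm_transform_mul_le (h : IsTest g) {c η : ℝ}
    (hsupp : ∀ v : ℝ, c + η < v ∨ v < c → g v = 0) :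
    ‖testTransform g 1‖ * ‖testTransform g 0‖ ≤ Real.exp (η / 2) * (∫ u : ℝ, ‖g u‖) ^ 2 := by
  have h1 : Integrable fun u => ‖g u‖ := (h.continuous.integrable_of_hasCompactSupport h.2).norm
  have hb : ∀ (s : ℂ) (K : ℝ), (∀ u ∈ Icc c (c + η), (s.re - 1 / 2) * u ≤ K) →
      ‖testTransform g s‖ ≤ Real.exp K * ∫ u : ℝ, ‖g u‖ := fun s K hK => by
    rw [← integral_const_mul]
    refine norm_integral_le_of_norm_le (h1.const_mul _) (Eventually.of_forall fun u => ?_)
    by_cases hu : u ∈ Icc c (c + η)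
    · rw [norm_mul, mul_comm (Real.exp K), Complex.norm_exp]
      refine mul_le_mul_of_nonneg_left (Real.exp_le_exp.2 ?_) (norm_nonneg _)
      simpa using hK u hu
    · rw [mem_Icc, not_and_or, not_le, not_le] at hu
      simp [hsupp u hu.symm]
  refine (mul_le_mul (hb 1 ((c + η) / 2) fun u hu => by norm_num; linarith [hu.2])
    (hb 0 (-c / 2) fun u hu => by norm_num; linarith [hu.1]) (norm_nonneg _)
      (by positivity)).trans (le_of_eq ?_)
  rw [mul_mul_mul_comm, ← Real.exp_add, sq]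
  ring_nf

theorem norm_line_le (h : IsTest g) (t : ℝ) :
    ‖testTransform g (((1 / 2 : ℝ) : ℂ) + t * I)‖ ≤ ∫ u : ℝ, ‖g u‖ := by
  refine norm_integral_le_of_norm_le (h.continuous.integrable_of_hasCompactSupport h.2).norm
    (Eventually.of_forall fun u => ?_)
  rw [norm_mul, Complex.norm_exp]
  simp

theorem sq_norm_line (h : IsTest g) (t : ℝ) :
    testTransform (weilCorr g) (((1 / 2 : ℝ) : ℂ) + t * I) =
      ((‖testTransform g (((1 / 2 : ℝ) : ℂ) + t * I)‖ ^ 2 : ℝ) : ℂ) := by
  rw [testTransform_weilCorr h, ← Complex.normSq_eq_norm_sq, ← Complex.mul_conj]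
  congr 3
  simp only [map_add, map_mul, conj_ofReal, conj_I]
  push_cast
  ring

theorem plancherel_line (h : IsTest g) :
    Integrable (fun t : ℝ => ‖testTransform g (((1 / 2 : ℝ) : ℂ) + t * I)‖ ^ 2) ∧
      ∫ t : ℝ, ‖testTransform g (((1 / 2 : ℝ) : ℂ) + t * I)‖ ^ 2 =
        2 * π * ∫ u : ℝ, ‖g u‖ ^ 2 := by
  have hi := integrable_line (isTest_weilCorr h) (1 / 2)
  simp only [sq_norm_line h] at hi
  refine ⟨by simpa only [RCLike.re_to_complex, ofReal_re] using hi.re, ?_⟩
  have h2 := integral_line_eq (isTest_weilCorr h) (1 / 2)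
  simp only [sq_norm_line h] at h2
  rw [integral_complex_ofReal, weilCorr_apply] at h2
  simp only [sub_zero, Complex.mul_conj, Complex.normSq_eq_norm_sq] at h2
  rw [integral_complex_ofReal] at h2
  exact_mod_cast h2

/-- **Yoshida's positivity.** -/
theorem exists_short_positive (h : HasFunctionalEquation a m E lam mu Q omega)
    (he : HasEulerProduct a) (hd : 0 < degree lam) :
    ∃ η : ℝ, 0 < η ∧ ∀ (g : ℝ → ℂ) (c : ℝ), IsTest g →
      (∀ v : ℝ, c + η < v ∨ v < c → g v = 0) →
      (1 / 2) * ∫ u : ℝ, ‖g u‖ ^ 2 ≤ weilForm a m lam mu Q g := by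
  obtain ⟨T, hT1, hT⟩ := exists_weight_ge h hd 1
  obtain ⟨B, hB⟩ := isCompact_Icc.exists_bound_of_continuousOn (s := Icc (-T) T)
    (continuous_archWeightF h).continuousOn
  have hB0 : 0 ≤ B := (norm_nonneg _).trans (hB 0 ⟨by linarith, by linarith⟩)
  obtain ⟨K, hK⟩ : ∃ K, K = 4 * (m : ℝ) + (1 + B) * T / π := ⟨_, rfl⟩
  have hK0 : 0 ≤ K := by rw [hK]; positivity
  obtain ⟨η, hηd⟩ : ∃ η, η = min (1 / 2) (1 / (2 * K + 1)) := ⟨_, rfl⟩
  have hη : 0 < η := hηd ▸ lt_min (by norm_num) (by positivity)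
  refine ⟨η, hη, fun g c hg hsupp => ?_⟩
  have hη2 : η ≤ 1 / 2 := hηd ▸ min_le_left _ _
  have hlog : η < Real.log 2 := hη2.trans_lt (by linarith [Real.log_two_gt_d9])
  rw [weilForm_short he hlog hsupp]
  obtain ⟨N, hN⟩ : ∃ N, N = ∫ u : ℝ, ‖g u‖ ^ 2 := ⟨_, rfl⟩
  have hN0 : 0 ≤ N := hN ▸ integral_nonneg fun u => by positivity
  have hI := sq_integral_norm_le hg hη hsupp
  rw [← hN] at hI ⊢
  obtain ⟨P, hP⟩ : ∃ P : ℝ → ℝ,
      P = fun t : ℝ => ‖testTransform g (((1 / 2 : ℝ) : ℂ) + t * I)‖ ^ 2 := ⟨_, rfl⟩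
  obtain ⟨hPi, hPv⟩ := plancherel_line hg
  rw [← hP] at hPi
  have hPW : Integrable fun t => P t * archWeightF lam mu Q t := by
    obtain ⟨A, hA⟩ := exists_halfKernel_le (m := m) (Q := Q) h.lam_pos h.mu_re
    have hk := continuous_halfKernel (m := m) (Q := Q) h.lam_pos h.mu_re
    have h0 := integrable_line_mul (isTest_weilCorr hg) (1 / 2)
      (hk.add (continuous_conj.comp hk)) (A := A + A) fun t => by
        refine (norm_add_le _ _).trans ?_
        rw [Function.comp_apply, Complex.norm_conj, add_mul]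
        exact add_le_add (hA t) (hA t)
    simp only [Pi.add_apply, Function.comp_apply, halfKernel, halfKernel_add_conj h.Q_pos,
      sq_norm_line hg, ← ofReal_mul] at h0
    simpa only [RCLike.re_to_complex, ofReal_re, hP] using h0.re
  have hpole : -(2 * (m : ℝ) * (2 * (η * N))) ≤
      2 * m * (testTransform g 1 * conj (testTransform g 0)).re := by
    have h1 : Real.exp (η / 2) ≤ 2 := by
      refine (Real.exp_le_exp.2 (show η / 2 ≤ Real.log 2 by linarith)).trans ?_
      rw [Real.exp_log two_pos]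
    have h2 : |(testTransform g 1 * conj (testTransform g 0)).re| ≤ 2 * (η * N) := by
      refine (abs_re_le_norm _).trans ?_
      rw [norm_mul, Complex.norm_conj]
      exact (norm_transform_mul_le hg hsupp).trans
        (mul_le_mul h1 hI (sq_nonneg _) two_pos.le)
    rw [← mul_neg]
    exact mul_le_mul_of_nonneg_left (abs_le.1 h2).1 (by positivity)
  have harch : 2 * π * N - (1 + B) * (2 * T) * (η * N) ≤
      ∫ t : ℝ, P t * archWeightF lam mu Q t := by
    have hc : Integrable ((Icc (-T) T).indicator fun _ : ℝ => (1 + B) * (η * N)) :=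
      (integrableOn_const measure_Icc_lt_top.ne).integrable_indicator measurableSet_Icc
    have e : 2 * π * N - (1 + B) * (2 * T) * (η * N) =
        ∫ t : ℝ, (P t - (Icc (-T) T).indicator (fun _ => (1 + B) * (η * N)) t) := by
      rw [integral_sub hPi hc, integral_indicator_const _ measurableSet_Icc,
        Real.volume_real_Icc_of_le (by linarith), smul_eq_mul, hP, hPv, hN]
      ring
    rw [e]
    refine integral_mono (hPi.sub hc) hPW fun t => ?_
    have hP0 : 0 ≤ P t := by rw [hP]; positivity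
    by_cases ht : t ∈ Icc (-T) T
    · simp only [indicator_of_mem ht]
      have hw := (abs_le.1 ((Real.norm_eq_abs _).symm.trans_le (hB t ht))).1
      have hPle : P t ≤ η * N := by
        rw [hP]
        exact (pow_le_pow_left₀ (norm_nonneg _) (norm_line_le hg t) 2).trans hI
      nlinarith [mul_le_mul_of_nonneg_left hPle (show 0 ≤ 1 + B by linarith),
        mul_le_mul_of_nonneg_left hw hP0]
    · simp only [indicator_of_notMem ht, sub_zero]
      refine le_mul_of_one_le_right hP0 (hT t ?_)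
      by_contra hlt
      exact ht (abs_le.1 (le_of_lt (not_le.1 hlt)))
  rw [show (∫ t : ℝ, ‖testTransform g (((1 / 2 : ℝ) : ℂ) + t * I)‖ ^ 2 *
    archWeightF lam mu Q t) = ∫ t : ℝ, P t * archWeightF lam mu Q t by rw [hP]]
  have hdiv : N - (1 + B) * T / π * (η * N) ≤
      (∫ t : ℝ, P t * archWeightF lam mu Q t) / (2 * π) := by
    rw [le_div_iff₀ (by positivity)]
    refine le_trans (le_of_eq ?_) harch
    field_simp
  have hKη : K * η ≤ 1 / 2 := by
    have h1 : η ≤ 1 / (2 * K + 1) := hηd ▸ min_le_right _ _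
    rw [le_div_iff₀ (by positivity)] at h1
    nlinarith
  have hfin : N - K * (η * N) ≥ 1 / 2 * N := by nlinarith
  rw [hK, add_mul] at hfin
  linarith

theorem integral_norm_sq_pos (h : IsTest g) (hne : g ≠ 0) : 0 < ∫ u : ℝ, ‖g u‖ ^ 2 := by
  obtain ⟨x, hx⟩ := Function.ne_iff.1 hne
  have hsq : Continuous fun u => ‖g u‖ ^ 2 := (continuous_pow 2).comp h.continuous.norm
  refine hsq.integral_pos_of_hasCompactSupport_nonneg_nonzero
    (x := x) (h.2.norm.comp_left (g := fun y : ℝ => y ^ 2) (by norm_num)) (fun u => sq_nonneg _) ?_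
  exact pow_ne_zero 2 (norm_ne_zero_iff.2 hx)

end FA.SelbergPNT

end
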