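import Fermat.Agent.SelbergPNT.Formula
import Fermat.Agent.SelbergWeil.Positivity
import Fermat.Agent.WeilExplicit.Laplace

/-!
# The prime number theorem is nonvanishing, and its error term is a zero-free half plane

The Laplace transform of `∑ m M φ ρ e^(ρ u)` is `∑ m M φ ρ / (w - ρ)`: a bound for the former
continues the latter, which has its poles at the zeros.
-/

set_option autoImplicit false

noncomputable section

open Complex MeasureTheory Filter Topology Set Asymptotics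
open scoped Real ComplexConjugate
open FA.DedekindHadamard (fMult)
open FA.DegreeGap (HasFunctionalEquation)
open FA.SelbergClass (HasEulerProduct)
open FA.SelbergHadamard (xiF isSelfDual_xiF IsSelfDual ZerosOnLine)

namespace FA.SelbergPNT

variable {a : ℕ → ℂ} {m : ℕ} {E : ℂ → ℂ} {r : ℕ} {lam : Fin r → ℝ} {mu : Fin r → ℂ} {Q : ℝ}
  {omega : ℂ} {φ : ℝ → ℂ} {X : ℂ → ℂ} {ρ₀ : ℂ}

/-- `∫_0^∞ Z (e^u) e^(-w u) du`. -/
def zeroLaplace (X : ℂ → ℂ) (φ : ℝ → ℂ) (w : ℂ) : ℂ :=
  ∫ u in Ioi (0 : ℝ), zeroPart X φ (Real.exp u) * cexp (-w * u)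

theorem exp_cpow (u : ℝ) (ρ : ℂ) : ((Real.exp u : ℝ) : ℂ) ^ ρ = cexp (ρ * u) := by
  rw [cpow_def_of_ne_zero (ofReal_ne_zero.2 (Real.exp_pos u).ne'),
    ← Complex.ofReal_log (Real.exp_pos u).le, Real.log_exp, mul_comm]

theorem continuousOn_zeroPart (hX : IsSelfDual X) (hs : Summable fun ρ => ‖zeroCoef X φ ρ‖) :
    ContinuousOn (fun u : ℝ => zeroPart X φ (Real.exp u)) (Ici 0) := by
  have h1 : ContinuousOn (fun u : ℝ => ∑' ρ, zeroCoef X φ ρ * cexp ((ρ - 1) * u)) (Ici 0) := by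
    refine continuousOn_tsum (fun ρ => (by fun_prop : Continuous fun u : ℝ =>
      zeroCoef X φ ρ * cexp ((ρ - 1) * u)).continuousOn) hs fun ρ u hu => ?_
    rw [norm_mul]
    by_cases hm : fMult X ρ = 0
    · simp [zeroCoef, hm]
    refine mul_le_of_le_one_right (norm_nonneg _) ?_
    rw [Complex.norm_exp]
    refine Real.exp_le_one_iff.2 ?_
    simp only [mul_re, sub_re, one_re, ofReal_re, ofReal_im, mul_zero, sub_zero]
    exact mul_nonpos_of_nonpos_of_nonneg
      (by linarith [(hX.zero_strip (hX.mult_ne_zero_iff.1 hm)).2]) hu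
  refine (h1.mul (by fun_prop : Continuous fun u : ℝ => cexp u).continuousOn).congr fun u _ => ?_
  simp only [zeroPart, Pi.mul_apply]
  rw [← tsum_mul_right]
  refine tsum_congr fun ρ => ?_
  rw [exp_cpow, mul_assoc, ← Complex.exp_add]
  ring_nf

theorem aestronglyMeasurable_integrand (hX : IsSelfDual X)
    (hs : Summable fun ρ => ‖zeroCoef X φ ρ‖) (w : ℂ) :
    AEStronglyMeasurable (fun u : ℝ => zeroPart X φ (Real.exp u) * cexp (-w * u))
      (volume.restrict (Ioi 0)) :=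
  (((continuousOn_zeroPart hX hs).mul (by fun_prop : Continuous fun u : ℝ =>
    cexp (-w * u)).continuousOn).mono Ioi_subset_Ici_self).aestronglyMeasurable measurableSet_Ioi

theorem norm_exp_neg_mul (w : ℂ) (u : ℝ) : ‖cexp (-w * u)‖ = Real.exp (-w.re * u) := by
  rw [Complex.norm_exp]
  simp

/-- **The transform is `∑ m M φ ρ / (w - ρ)` for `re w > 1`.** -/
theorem hasSum_zeroLaplace (hX : IsSelfDual X) (hs : Summable fun ρ => ‖zeroCoef X φ ρ‖) {w : ℂ}
    (hw : 1 < w.re) :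
    HasSum (fun ρ => zeroCoef X φ ρ * (w - ρ)⁻¹) (zeroLaplace X φ w) := by
  classical
  have hsupp : ∀ ρ, zeroCoef X φ ρ ≠ 0 → ρ.re ≤ 1 := fun ρ hρ =>
    (hX.zero_strip (hX.mult_ne_zero_iff.1 fun hm => hρ (by simp [zeroCoef, hm]))).2
  have : Countable {ρ : ℂ // zeroCoef X φ ρ ≠ 0} := by
    refine Set.Countable.to_subtype (hs.countable_support.mono fun ρ hρ => ?_)
    exact norm_ne_zero_iff.2 hρ
  obtain ⟨F, hF⟩ : ∃ F : {ρ : ℂ // zeroCoef X φ ρ ≠ 0} → ℝ → ℂ,
      F = fun (ρ : {ρ : ℂ // zeroCoef X φ ρ ≠ 0}) (u : ℝ) =>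
        zeroCoef X φ ρ * cexp (((ρ : ℂ) - w) * u) := ⟨_, rfl⟩
  have hre : ∀ ρ : {ρ : ℂ // zeroCoef X φ ρ ≠ 0}, ((ρ : ℂ) - w).re < 0 := fun ρ => by
    simp only [sub_re]
    linarith [hsupp ρ ρ.2]
  have hFi : ∀ ρ, Integrable (F ρ) (volume.restrict (Ioi 0)) := fun ρ =>
    hF ▸ (integrableOn_exp_mul_complex_Ioi (hre ρ) 0).const_mul _
  have hnorm : Summable fun ρ => ∫ u in Ioi (0 : ℝ), ‖F ρ u‖ := by
    refine ((hs.comp_injective Subtype.val_injective).mul_right
      (1 / (w.re - 1))).of_nonneg_of_le (fun ρ => integral_nonneg fun u => norm_nonneg _)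
      fun ρ => ?_
    simp only [hF, norm_mul, integral_const_mul, Function.comp_apply]
    refine mul_le_mul_of_nonneg_left ?_ (norm_nonneg _)
    have hb := integral_exp_mul_Ioi (a := -(w.re - 1)) (by linarith) 0
    rw [mul_zero, Real.exp_zero, neg_div_neg_eq] at hb
    rw [← hb]
    refine setIntegral_mono_on (integrableOn_exp_mul_complex_Ioi (hre ρ) 0).norm
      (integrableOn_exp_mul_Ioi (by linarith) 0) measurableSet_Ioi fun u hu => ?_
    rw [Complex.norm_exp]
    refine Real.exp_le_exp.2 ?_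
    simp only [mul_re, sub_re, ofReal_re, ofReal_im, mul_zero, sub_zero]
    exact mul_le_mul_of_nonneg_right (by linarith [hsupp ρ ρ.2]) (le_of_lt hu)
  have hmain := hasSum_integral_of_summable_integral_norm hFi hnorm
  have hpt : ∀ u : ℝ, 0 < u → ∑' ρ, F ρ u = zeroPart X φ (Real.exp u) * cexp (-w * u) :=
    fun u _ => by
    rw [zeroPart, ← tsum_mul_right, ← tsum_subtype_eq_of_support_subset
      (s := {ρ : ℂ | zeroCoef X φ ρ ≠ 0}) fun ρ hρ h0 => hρ (by simp [show zeroCoef X φ ρ = 0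
        from h0])]
    refine tsum_congr fun ρ => ?_
    simp only [hF]
    rw [exp_cpow, mul_assoc, ← Complex.exp_add]
    ring_nf
  rw [setIntegral_congr_fun measurableSet_Ioi fun u hu => hpt u hu, ← zeroLaplace] at hmain
  refine (hasSum_subtype_iff_of_support_subset (s := {ρ : ℂ | zeroCoef X φ ρ ≠ 0})
    fun ρ hρ h0 => hρ (by simp [show zeroCoef X φ ρ = 0 from h0])).1 (hmain.congr_fun fun ρ => ?_)
  simp only [hF, Function.comp_apply, integral_const_mul, integral_exp_mul_complex_Ioi (hre ρ)]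
  rw [ofReal_zero, mul_zero, Complex.exp_zero, ← neg_sub w (ρ : ℂ), neg_div_neg_eq, one_div]

/-- The strip `|im w - im ρ₀| < 1`. -/
def band (ρ₀ : ℂ) : Set ℂ := {w | |w.im - ρ₀.im| < 1}

theorem isOpen_band (ρ₀ : ℂ) : IsOpen (band ρ₀) :=
  isOpen_lt (by fun_prop) continuous_const

theorem mem_band_self (ρ₀ : ℂ) : ρ₀ ∈ band ρ₀ := by simp [band]

/-- **`∑ m M φ ρ / (w - ρ)` continues across a zero to a function with a pole there.** -/
theorem exists_continuation (hX : IsSelfDual X) (hs : Summable fun ρ => ‖zeroCoef X φ ρ‖)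
    (hρ₀ : X ρ₀ = 0) (hM : mellin φ ρ₀ ≠ 0) :
    ∃ P G : ℂ → ℂ, Differentiable ℂ P ∧ DifferentiableOn ℂ G (band ρ₀) ∧ P ρ₀ = 0 ∧ G ρ₀ ≠ 0 ∧
      ∀ w ∈ band ρ₀, 1 < w.re → P w * zeroLaplace X φ w = G w := by
  classical
  obtain ⟨F, hF⟩ : ∃ F, F = (FA.SelbergWeil.finite_near hX ρ₀.im 2).toFinset := ⟨_, rfl⟩
  have hmem : ρ₀ ∈ F := by
    rw [hF, Set.Finite.mem_toFinset]
    exact ⟨hX.mult_ne_zero_iff.2 hρ₀, by simp⟩
  obtain ⟨P, hP⟩ : ∃ P : ℂ → ℂ, P = fun w => ∏ z ∈ F, (w - z) := ⟨_, rfl⟩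
  obtain ⟨tail, htail⟩ : ∃ tail : ℂ → ℂ → ℂ,
      tail = fun ρ w => if ρ ∈ F then 0 else zeroCoef X φ ρ * (w - ρ)⁻¹ := ⟨_, rfl⟩
  have hfar : ∀ ρ, ρ ∉ F → zeroCoef X φ ρ ≠ 0 → ∀ w ∈ band ρ₀, 1 ≤ ‖w - ρ‖ := fun ρ hρ hc w hw => by
    have h2 : 2 < |ρ.im - ρ₀.im| := by
      by_contra hle
      refine hρ ?_
      rw [hF, Set.Finite.mem_toFinset]
      exact ⟨fun hm => hc (by simp [zeroCoef, hm]), not_lt.1 hle⟩
    refine le_trans ?_ (abs_im_le_norm _)
    rw [sub_im, abs_sub_comm]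
    have hw' : |w.im - ρ₀.im| < 1 := hw
    linarith [abs_sub_le ρ.im w.im ρ₀.im]
  have htd : DifferentiableOn ℂ (fun w => ∑' ρ, tail ρ w) (band ρ₀) := by
    refine Complex.differentiableOn_tsum_of_summable_norm hs (fun ρ => ?_) (isOpen_band ρ₀)
      fun ρ w hw => ?_
    · rw [htail]
      by_cases hρ : ρ ∈ F
      · simp only [if_pos hρ]
        exact differentiableOn_const 0
      simp only [if_neg hρ]
      by_cases hc : zeroCoef X φ ρ = 0
      · simp only [hc, zero_mul]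
        exact differentiableOn_const 0
      refine fun w hw => (((differentiableAt_id.sub_const ρ).inv fun e => ?_).const_mul
        _).differentiableWithinAt
      have := hfar ρ hρ hc w hw
      rw [id_eq] at e
      rw [e, norm_zero] at this
      linarith
    · rw [htail]
      by_cases hρ : ρ ∈ F
      · simp [if_pos hρ]
      simp only [if_neg hρ]
      by_cases hc : zeroCoef X φ ρ = 0
      · simp [hc]
      rw [norm_mul, norm_inv]
      exact mul_le_of_le_one_right (norm_nonneg _) (inv_le_one_of_one_le₀ (hfar ρ hρ hc w hw))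
  obtain ⟨G, hG⟩ : ∃ G : ℂ → ℂ, G = fun w =>
      (∑ ρ ∈ F, zeroCoef X φ ρ * ∏ z ∈ F.erase ρ, (w - z)) + P w * ∑' ρ, tail ρ w := ⟨_, rfl⟩
  refine ⟨P, G, hP ▸ by fun_prop, ?_, ?_, ?_, fun w hw hre => ?_⟩
  · rw [hG]
    exact (Differentiable.differentiableOn (by fun_prop)).add
      ((Differentiable.differentiableOn (hP ▸ by fun_prop)).mul htd)
  · rw [hP]
    exact Finset.prod_eq_zero hmem (sub_self _)
  · have hP0 : P ρ₀ = 0 := hP ▸ Finset.prod_eq_zero hmem (sub_self _)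
    rw [hG]
    simp only [hP0, zero_mul, add_zero]
    rw [Finset.sum_eq_single_of_mem ρ₀ hmem fun z _ hz => ?_]
    · refine mul_ne_zero (mul_ne_zero (Nat.cast_ne_zero.2 (hX.mult_ne_zero_iff.2 hρ₀)) hM)
        (Finset.prod_ne_zero_iff.2 fun z hz => sub_ne_zero.2 fun e => ?_)
      exact (Finset.mem_erase.1 hz).1 e.symm
    · rw [Finset.prod_eq_zero (Finset.mem_erase.2 ⟨hz.symm, hmem⟩) (sub_self _), mul_zero]
  · have h1 := hasSum_zeroLaplace hX hs hre
    have hne : ∀ z ∈ F, w - z ≠ 0 := fun z hz e => by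
      rw [hF, Set.Finite.mem_toFinset] at hz
      have := (hX.zero_strip (hX.mult_ne_zero_iff.1 hz.1)).2
      rw [← sub_eq_zero.1 e] at this
      linarith
    have h2 : ∑' ρ, tail ρ w =
        zeroLaplace X φ w - ∑ ρ ∈ F, zeroCoef X φ ρ * (w - ρ)⁻¹ := by
      have h3 := h1.sub (hasSum_sum_of_ne_finset_zero (f := fun ρ =>
        if ρ ∈ F then zeroCoef X φ ρ * (w - ρ)⁻¹ else 0) (s := F) fun ρ hρ => if_neg hρ)
      rw [Finset.sum_ite_of_true (fun _ h => h)] at h3
      refine (h3.congr_fun fun ρ => ?_).tsum_eq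
      rw [htail]
      by_cases hρ : ρ ∈ F <;> simp [hρ]
    rw [hG]
    simp only [h2, mul_sub, Finset.mul_sum]
    rw [Finset.sum_congr rfl fun ρ hρ => (?_ : zeroCoef X φ ρ * ∏ z ∈ F.erase ρ, (w - z) =
      P w * (zeroCoef X φ ρ * (w - ρ)⁻¹))]
    · ring
    · rw [hP]
      simp only
      rw [← Finset.mul_prod_erase _ _ hρ]
      field_simp [hne ρ hρ]

theorem differentiableAt_zeroLaplace (hX : IsSelfDual X) (hs : Summable fun ρ => ‖zeroCoef X φ ρ‖)
    {θ C : ℝ} (hb : ∀ u : ℝ, 0 ≤ u → ‖zeroPart X φ (Real.exp u)‖ ≤ C * Real.exp (θ * u)) {w : ℂ}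
    (hw : θ < w.re) : DifferentiableAt ℂ (zeroLaplace X φ) w := by
  obtain ⟨δ, hδ⟩ : ∃ δ, δ = (w.re - θ) / 2 := ⟨_, rfl⟩
  have hδ0 : 0 < δ := by rw [hδ]; linarith
  have hint : ∀ k : ℕ, IntegrableOn (fun u : ℝ => C * (u ^ k * Real.exp (-δ * u))) (Ioi 0) :=
    fun k => (FA.WeilExplicit.integrableOn_pow_mul_exp k hδ0).const_mul C
  have hbound : ∀ z : ℂ, θ + δ ≤ z.re → ∀ u : ℝ, 0 ≤ u →
      ‖zeroPart X φ (Real.exp u) * cexp (-z * u)‖ ≤ C * Real.exp (-δ * u) := fun z hz u hu => by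
    have hC : 0 ≤ C := nonneg_of_mul_nonneg_left
      ((norm_nonneg _).trans (hb 0 le_rfl)) (Real.exp_pos _)
    rw [norm_mul, norm_exp_neg_mul]
    refine (mul_le_mul_of_nonneg_right (hb u hu) (Real.exp_pos _).le).trans ?_
    rw [mul_assoc, ← Real.exp_add]
    exact mul_le_mul_of_nonneg_left (Real.exp_le_exp.2 (by nlinarith)) hC
  have hd := hasDerivAt_integral_of_dominated_loc_of_deriv_le
    (μ := volume.restrict (Ioi (0 : ℝ)))
    (F := fun (z : ℂ) (u : ℝ) => zeroPart X φ (Real.exp u) * cexp (-z * u))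
    (F' := fun (z : ℂ) (u : ℝ) => zeroPart X φ (Real.exp u) * (cexp (-z * u) * -(u : ℂ)))
    (x₀ := w) (bound := fun u => C * (u ^ 1 * Real.exp (-δ * u)))
    (Metric.ball_mem_nhds w hδ0)
    (Eventually.of_forall fun z => aestronglyMeasurable_integrand hX hs z) ?_ ?_ ?_ (hint 1) ?_
  · exact hd.2.differentiableAt
  · refine (hint 0).mono' (aestronglyMeasurable_integrand hX hs w) ?_
    filter_upwards [ae_restrict_mem measurableSet_Ioi] with u hu
    simpa using hbound w (by linarith) u (le_of_lt hu)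
  · exact ((aestronglyMeasurable_integrand hX hs w).mul
      (by fun_prop : Continuous fun u : ℝ => -(u : ℂ)).aestronglyMeasurable).congr
      (Eventually.of_forall fun u => mul_assoc _ _ _)
  · filter_upwards [ae_restrict_mem measurableSet_Ioi] with u hu z hz
    have hz' : θ + δ ≤ z.re := by
      rw [Metric.mem_ball, dist_eq_norm] at hz
      have := abs_le.1 ((abs_re_le_norm (z - w)).trans hz.le)
      rw [sub_re] at this
      linarith
    rw [← mul_assoc, norm_mul, norm_neg, Complex.norm_real, Real.norm_of_nonneg (le_of_lt hu),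
      pow_one]
    exact (mul_le_mul_of_nonneg_right (hbound z hz' u (le_of_lt hu)) (le_of_lt hu)).trans_eq
      (by ring)
  · filter_upwards with u z _
    simpa using ((((hasDerivAt_id' z).neg.mul_const (u : ℂ))).cexp).const_mul
      (zeroPart X φ (Real.exp u))

/-- **A bound `O (x ^ θ)` for the part of the zeros leaves none to the right of `θ`.** -/
theorem re_le_of_bound (hX : IsSelfDual X) (hs : Summable fun ρ => ‖zeroCoef X φ ρ‖) {θ C : ℝ}
    (hb : ∀ x : ℝ, 1 ≤ x → ‖zeroPart X φ x‖ ≤ C * x ^ θ) {ρ : ℂ} (hρ : X ρ = 0)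
    (hM : mellin φ ρ ≠ 0) : ρ.re ≤ θ := by
  by_contra hlt
  rw [not_le] at hlt
  obtain ⟨P, G, hP, hG, hP0, hG0, heq⟩ := exists_continuation hX hs hρ hM
  obtain ⟨V, hV⟩ : ∃ V : Set ℂ, V = {w | θ < w.re} ∩ band ρ := ⟨_, rfl⟩
  have hVo : IsOpen V := hV ▸ (isOpen_lt continuous_const continuous_re).inter (isOpen_band ρ)
  have hVc : Convex ℝ V := by
    rw [hV, show band ρ = {w : ℂ | ρ.im - 1 < w.im} ∩ {w : ℂ | w.im < ρ.im + 1} by
      ext w; simp only [band, mem_ofPred_eq, mem_inter_iff, abs_lt]; constructor <;>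
        rintro ⟨h1, h2⟩ <;> constructor <;> linarith]
    exact (convex_halfSpace_re_gt θ).inter
      ((convex_halfSpace_im_gt _).inter (convex_halfSpace_im_lt _))
  have hb' : ∀ u : ℝ, 0 ≤ u → ‖zeroPart X φ (Real.exp u)‖ ≤ C * Real.exp (θ * u) :=
    fun u hu => (hb _ (Real.one_le_exp hu)).trans_eq (by rw [← Real.exp_mul, mul_comm u])
  have h1 : DifferentiableOn ℂ (fun w => P w * zeroLaplace X φ w) V := fun w hw => by
    rw [hV] at hw
    exact ((hP w).mul (differentiableAt_zeroLaplace hX hs hb' hw.1)).differentiableWithinAt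
  have hz : ((max θ 1 + 1 : ℝ) : ℂ) + ρ.im * I ∈ V := by
    rw [hV]
    refine ⟨?_, ?_⟩
    · show θ < (_ : ℂ).re
      simp
      linarith [le_max_left θ 1]
    · simp [band]
  have hmain := (h1.analyticOnNhd hVo).eqOn_of_preconnected_of_eventuallyEq
    ((hG.mono (hV ▸ inter_subset_right)).analyticOnNhd hVo) hVc.isPreconnected hz ?_
    (x := ρ) (hV ▸ ⟨hlt, mem_band_self ρ⟩)
  · simp only [hP0, zero_mul] at hmain
    exact hG0 hmain.symm
  · filter_upwards [hVo.mem_nhds hz,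
      (isOpen_lt continuous_const continuous_re).mem_nhds (show (1 : ℝ) <
        (((max θ 1 + 1 : ℝ) : ℂ) + ρ.im * I).re by simp)] with w hw hw'
    rw [hV] at hw
    exact heq w hw.2 hw'

/-- **`o x` for the part of the zeros leaves none on `re s = 1`.** -/
theorem re_ne_one_of_tendsto (hX : IsSelfDual X) (hs : Summable fun ρ => ‖zeroCoef X φ ρ‖)
    (hlim : Tendsto (fun x : ℝ => zeroPart X φ x / x) atTop (𝓝 0)) {ρ : ℂ} (hρ : X ρ = 0)
    (hM : mellin φ ρ ≠ 0) : ρ.re ≠ 1 := fun h1 => by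
  obtain ⟨P, G, hP, hG, hP0, hG0, heq⟩ := exists_continuation hX hs hρ hM
  obtain ⟨S, hS⟩ : ∃ S, S = ∑' z, ‖zeroCoef X φ z‖ := ⟨_, rfl⟩
  have hS0 : 0 ≤ S := hS ▸ tsum_nonneg fun _ => norm_nonneg _
  have hlap : Tendsto (fun ε : ℝ => (ε : ℂ) * zeroLaplace X φ (ρ + ε)) (𝓝[>] 0) (𝓝 0) := by
    rw [Metric.tendsto_nhds]
    intro η hη
    rw [Metric.tendsto_atTop] at hlim
    obtain ⟨U, hU⟩ := hlim (η / 2) (half_pos hη)
    obtain ⟨V, hV⟩ : ∃ V, V = Real.log (max U 1) := ⟨_, rfl⟩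
    have hV0 : 0 ≤ V := hV ▸ Real.log_nonneg (le_max_right _ _)
    obtain ⟨δ, hδ⟩ : ∃ δ, δ = η / (2 * (S * V + 1)) := ⟨_, rfl⟩
    have hδ0 : 0 < δ := hδ ▸ by positivity
    filter_upwards [Ioo_mem_nhdsGT hδ0] with ε hε
    rw [dist_zero_right, norm_mul, Complex.norm_real, Real.norm_of_nonneg hε.1.le, zeroLaplace]
    have hi1 : IntegrableOn (fun u : ℝ => η / 2 * Real.exp (-ε * u)) (Ioi 0) :=
      (integrableOn_exp_mul_Ioi (by linarith [hε.1]) 0).const_mul _
    have hi2 : IntegrableOn ((Ioc 0 V).indicator fun _ : ℝ => S) (Ioi 0) :=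
      ((integrableOn_const measure_Ioc_lt_top.ne).integrable_indicator
        measurableSet_Ioc).integrableOn
    have hle : ‖∫ u in Ioi (0 : ℝ), zeroPart X φ (Real.exp u) * cexp (-(ρ + ε) * u)‖ ≤
        (η / 2) / ε + S * V := by
      refine (norm_integral_le_of_norm_le (hi1.add hi2) ?_).trans (le_of_eq ?_)
      · filter_upwards [ae_restrict_mem measurableSet_Ioi] with u hu
        rw [norm_mul, norm_exp_neg_mul, Pi.add_apply, add_re, h1, ofReal_re]
        have he : Real.exp (-(1 + ε) * u) = Real.exp (-ε * u) / Real.exp u := by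
          rw [← Real.exp_sub]
          ring_nf
        rw [he, mul_div_assoc', div_mul_eq_mul_div₀, mul_comm]
        by_cases huV : u ≤ V
        · rw [indicator_of_mem (show u ∈ Ioc 0 V from ⟨hu, huV⟩)]
          refine le_add_of_nonneg_of_le (by positivity) ?_
          rw [mul_div_assoc]
          refine le_trans (mul_le_of_le_one_left (by positivity)
            (Real.exp_le_one_iff.2 (by nlinarith [hε.1, mem_Ioi.1 hu]))) ?_
          rw [div_le_iff₀ (Real.exp_pos u), mul_comm S, hS]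
          refine (norm_zeroPart_le hX hs (fun z hz => (hX.zero_strip hz).2)
            (Real.one_le_exp (le_of_lt hu))).trans_eq (by rw [Real.rpow_one])
        · rw [indicator_of_notMem (fun hm => huV hm.2), add_zero]
          rw [mul_div_assoc, mul_comm η, mul_div_assoc]
          refine mul_le_mul_of_nonneg_left ?_ (Real.exp_pos _).le
          have hU' : U ≤ Real.exp u := by
            refine (le_max_left U 1).trans ?_
            rw [← Real.exp_log (show 0 < max U 1 by positivity), ← hV]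
            exact Real.exp_le_exp.2 (le_of_not_ge huV)
          have := (hU _ hU').le
          rwa [dist_zero_right, norm_div, Complex.norm_real,
            Real.norm_of_nonneg (Real.exp_pos u).le] at this
      · simp only [Pi.add_apply]
        rw [integral_add hi1 hi2, integral_const_mul,
          integral_exp_mul_Ioi (by linarith [hε.1] : -ε < 0), mul_zero, Real.exp_zero,
          neg_div_neg_eq, mul_one_div, setIntegral_indicator measurableSet_Ioc,
          inter_eq_right.2 Ioc_subset_Ioi_self, setIntegral_const, Real.volume_real_Ioc_of_le hV0,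
          sub_zero, smul_eq_mul, mul_comm V]
    refine (mul_le_mul_of_nonneg_left hle hε.1.le).trans_lt ?_
    rw [mul_add, mul_div_cancel₀ _ hε.1.ne']
    have h2 := mul_le_mul_of_nonneg_right hε.2.le (show 0 ≤ S * V by positivity)
    have h3 : δ * (2 * (S * V + 1)) = η := by
      rw [hδ]
      exact div_mul_cancel₀ _ (by positivity)
    linarith [mul_pos hδ0 two_pos]
  have hshift : Tendsto (fun ε : ℝ => ρ + (ε : ℂ)) (𝓝[>] 0) (𝓝 ρ) := by
    have : Continuous fun ε : ℝ => ρ + (ε : ℂ) := by fun_prop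
    simpa using (this.tendsto 0).mono_left (nhdsWithin_le_nhds (s := Ioi (0 : ℝ)))
  have hGlim : Tendsto (fun ε : ℝ => G (ρ + ε)) (𝓝[>] 0) (𝓝 (G ρ)) :=
    ((hG.differentiableAt ((isOpen_band ρ).mem_nhds (mem_band_self ρ))).continuousAt.tendsto
      ).comp hshift
  have hslope : Tendsto (fun ε : ℝ => dslope P ρ (ρ + ε)) (𝓝[>] 0) (𝓝 (dslope P ρ ρ)) :=
    ((continuousAt_dslope_same.2 (hP ρ)).tendsto).comp hshift
  refine hG0 (tendsto_nhds_unique hGlim ?_)
  have hprod := hslope.mul hlap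
  rw [mul_zero] at hprod
  refine hprod.congr' ?_
  filter_upwards [self_mem_nhdsWithin] with ε hε
  rw [← heq (ρ + ε) (by simp [band]) (by simp [h1]; exact hε), ← mul_assoc]
  congr 1
  have h2 := sub_smul_dslope P ρ (ρ + ε)
  rw [add_sub_cancel_left, hP0, sub_zero, smul_eq_mul] at h2
  rw [← h2, mul_comm]

theorem isBigO_sqrt {f g : ℝ → ℂ} {K X₀ θ : ℝ} (hθ : 1 / 2 ≤ θ)
    (h : ∀ x, X₀ ≤ x → ‖f x - g x‖ ≤ K * √x) :
    (fun x => f x - g x) =O[atTop] fun x : ℝ => x ^ θ := by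
  refine IsBigO.of_bound |K| ?_
  filter_upwards [eventually_ge_atTop X₀, eventually_ge_atTop 1] with x hx h1
  rw [Real.norm_of_nonneg (Real.rpow_nonneg (by linarith) θ)]
  refine (h x hx).trans (mul_le_mul (le_abs_self K) ?_ (Real.sqrt_nonneg x) (abs_nonneg K))
  rw [Real.sqrt_eq_rpow]
  exact Real.rpow_le_rpow_of_exponent_le h1 hθ

theorem zeroFree_iff_isBigO (h : HasFunctionalEquation a m E lam mu Q omega)
    (he : HasEulerProduct a) {θ : ℝ} (hθ : 1 / 2 ≤ θ) :
    (∀ ρ, xiF m E lam mu Q omega ρ = 0 → ρ.re ≤ θ) ↔ ∀ φ, IsCutoff φ →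
      (fun x : ℝ => smoothSum a φ x - (m : ℂ) * x * mellin φ 1) =O[atTop] fun x => x ^ θ := by
  have hd := isSelfDual_xiF h he
  obtain ⟨X, hX⟩ : ∃ X, X = xiF m E lam mu Q omega := ⟨_, rfl⟩
  rw [← hX] at hd ⊢
  constructor
  · intro hz φ hφ
    obtain ⟨K, X₀, -, -, hK⟩ := exists_smoothSum_sub_le h he hφ
    rw [← hX] at hK
    have h1 := isBigO_sqrt hθ hK
    have hs : Summable fun ρ => ‖zeroCoef X φ ρ‖ := hX ▸ summable_zeroCoef h he hφ
    have h2 : zeroPart X φ =O[atTop] fun x : ℝ => x ^ θ := by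
      refine IsBigO.of_bound (∑' ρ, ‖zeroCoef X φ ρ‖) ?_
      filter_upwards [eventually_ge_atTop 1] with x hx
      rw [Real.norm_of_nonneg (Real.rpow_nonneg (by linarith) θ), mul_comm]
      exact norm_zeroPart_le hd hs hz hx
    refine (h1.sub h2).congr_left fun x => ?_
    ring
  · intro hO ρ hρ
    obtain ⟨φ, hφ, hM⟩ := exists_mellin_ne_zero ρ
    obtain ⟨K, X₀, -, hX₀, hK⟩ := exists_smoothSum_sub_le h he hφ
    rw [← hX] at hK
    have hs : Summable fun ρ => ‖zeroCoef X φ ρ‖ := hX ▸ summable_zeroCoef h he hφ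
    have h2 : zeroPart X φ =O[atTop] fun x : ℝ => x ^ θ :=
      ((isBigO_sqrt hθ hK).sub (hO φ hφ)).congr_left fun x => by ring
    obtain ⟨c, hc⟩ := h2.bound
    obtain ⟨X₁, hX₁⟩ := eventually_atTop.1 hc
    obtain ⟨S, hS⟩ : ∃ S, S = ∑' z, ‖zeroCoef X φ z‖ := ⟨_, rfl⟩
    have hS0 : 0 ≤ S := hS ▸ tsum_nonneg fun _ => norm_nonneg _
    refine re_le_of_bound hd hs (C := |c| + max X₁ 1 * S) (fun x hx => ?_) hρ hM
    have hp : 1 ≤ x ^ θ := Real.one_le_rpow hx (by linarith)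
    rcases le_or_gt X₁ x with hxl | hxl
    · refine (hX₁ x hxl).trans ?_
      rw [Real.norm_of_nonneg (by linarith)]
      refine mul_le_mul_of_nonneg_right ((le_abs_self c).trans (le_add_of_nonneg_right ?_))
        (by linarith)
      positivity
    · refine (norm_zeroPart_le hd hs (fun z hz => (hd.zero_strip hz).2) hx).trans ?_
      rw [Real.rpow_one, ← hS]
      refine le_trans ?_ (le_mul_of_one_le_right (by positivity) hp)
      exact (mul_le_mul_of_nonneg_right (hxl.le.trans (le_max_left _ _)) hS0).trans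
        (le_add_of_nonneg_left (abs_nonneg c))

theorem nonvanishing_iff_tendsto (h : HasFunctionalEquation a m E lam mu Q omega)
    (he : HasEulerProduct a) :
    (∀ s : ℂ, s.re = 1 → E s ≠ 0) ↔ ∀ φ, IsCutoff φ →
      Tendsto (fun x : ℝ => smoothSum a φ x / x) atTop (𝓝 ((m : ℂ) * mellin φ 1)) := by
  have hd := isSelfDual_xiF h he
  obtain ⟨X, hX⟩ : ∃ X, X = xiF m E lam mu Q omega := ⟨_, rfl⟩
  rw [← hX] at hd
  have hiff : ∀ s : ℂ, s.re = 1 → (X s = 0 ↔ E s = 0) := fun s hs =>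
    hX ▸ FA.SelbergHadamard.xiF_eq_zero_iff h (by rw [hs]; exact one_pos)
  have hequiv : ∀ φ, IsCutoff φ → Tendsto (fun x : ℝ => (smoothSum a φ x -
      ((m : ℂ) * x * mellin φ 1 - zeroPart X φ x)) / x) atTop (𝓝 0) := fun φ hφ => by
    obtain ⟨K, X₀, -, -, hK⟩ := exists_smoothSum_sub_le h he hφ
    rw [← hX] at hK
    refine squeeze_zero_norm' ?_ (by
      simpa using (tendsto_inv_atTop_zero.comp Real.tendsto_sqrt_atTop).const_mul K)
    filter_upwards [eventually_ge_atTop X₀, eventually_gt_atTop 0] with x hx h0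
    rw [norm_div, Complex.norm_real, Real.norm_of_nonneg h0.le, div_le_iff₀ h0]
    refine (hK x hx).trans (le_of_eq ?_)
    rw [mul_assoc]
    congr 1
    rw [← div_eq_inv_mul, Real.div_sqrt]
  constructor
  · intro h1 φ hφ
    have hlt : ∀ ρ, X ρ = 0 → ρ.re < 1 := fun ρ hρ =>
      (hd.zero_strip hρ).2.lt_of_ne fun e => h1 ρ e ((hiff ρ e).1 hρ)
    have hs : Summable fun ρ => ‖zeroCoef X φ ρ‖ := hX ▸ summable_zeroCoef h he hφ
    have := (((hequiv φ hφ).sub (tendsto_zeroPart hd hs hlt)).add_const ((m : ℂ) * mellin φ 1))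
    rw [sub_zero, zero_add] at this
    refine this.congr' ?_
    filter_upwards [eventually_gt_atTop 0] with x hx
    have hx' : (x : ℂ) ≠ 0 := ofReal_ne_zero.2 hx.ne'
    field_simp
    ring
  · intro hlim s hs hE
    obtain ⟨φ, hφ, hM⟩ := exists_mellin_ne_zero s
    have hsum : Summable fun ρ => ‖zeroCoef X φ ρ‖ := hX ▸ summable_zeroCoef h he hφ
    refine re_ne_one_of_tendsto hd hsum ?_ ((hiff s hs).2 hE) hM hs
    have := (hequiv φ hφ).sub ((hlim φ hφ).sub_const ((m : ℂ) * mellin φ 1))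
    rw [sub_self, sub_zero] at this
    refine this.congr' ?_
    filter_upwards [eventually_gt_atTop 0] with x hx
    have hx' : (x : ℂ) ≠ 0 := ofReal_ne_zero.2 hx.ne'
    field_simp
    ring

theorem zerosOnLine_iff_isBigO (h : HasFunctionalEquation a m E lam mu Q omega)
    (he : HasEulerProduct a) :
    ZerosOnLine (xiF m E lam mu Q omega) ↔ ∀ φ, IsCutoff φ →
      (fun x : ℝ => smoothSum a φ x - (m : ℂ) * x * mellin φ 1) =O[atTop]
        fun x => x ^ (1 / 2 : ℝ) := by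
  rw [← zeroFree_iff_isBigO h he le_rfl]
  refine ⟨fun hl ρ hρ => (hl ρ hρ).le, fun hle ρ hρ => le_antisymm (hle ρ hρ) ?_⟩
  have := hle _ ((isSelfDual_xiF h he).eq_zero_mirror_iff ρ |>.2 hρ)
  rw [sub_re, one_re, conj_re] at this
  linarith

end FA.SelbergPNT

end
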