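import Fermat.Agent.SelbergPNT.Mellin

/-!
# The smoothed sum of `Λ_F` and the zeros

`∑ Λ_F n φ (n / x) = m x M φ 1 - ∑ x ^ ρ M φ ρ + O (√x)`.
-/

set_option autoImplicit false

noncomputable section

open Complex MeasureTheory Filter Topology Set
open scoped Real ComplexConjugate
open FA.WeilExplicit (IsTest testTransform)
open FA.DedekindHadamard (fMult)
open FA.DegreeGap (HasFunctionalEquation)
open FA.SelbergClass (HasEulerProduct)
open FA.SelbergHadamard (xiF isSelfDual_xiF IsSelfDual)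
open FA.SelbergLandau (lamF)
open FA.SelbergWeil (archWeightF)

namespace FA.SelbergPNT

variable {a : ℕ → ℂ} {m : ℕ} {E : ℂ → ℂ} {r : ℕ} {lam : Fin r → ℝ} {mu : Fin r → ℂ} {Q : ℝ}
  {omega : ℂ} {φ : ℝ → ℂ} {X : ℂ → ℂ}

/-- `∑ Λ_F n φ (n / x)`. -/
def smoothSum (a : ℕ → ℂ) (φ : ℝ → ℂ) (x : ℝ) : ℂ := ∑' n : ℕ, lamF a n * φ (n / x)

/-- The multiplicity times the Mellin transform. -/
def zeroCoef (X : ℂ → ℂ) (φ : ℝ → ℂ) (ρ : ℂ) : ℂ := (fMult X ρ : ℂ) * mellin φ ρ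

/-- `∑ m x ^ ρ M φ ρ` over the zeros. -/
def zeroPart (X : ℂ → ℂ) (φ : ℝ → ℂ) (x : ℝ) : ℂ := ∑' ρ : ℂ, zeroCoef X φ ρ * (x : ℂ) ^ ρ

theorem summable_zeroCoef (h : HasFunctionalEquation a m E lam mu Q omega)
    (he : HasEulerProduct a) (hφ : IsCutoff φ) :
    Summable fun ρ : ℂ => ‖zeroCoef (xiF m E lam mu Q omega) φ ρ‖ :=
  (FA.SelbergWeil.hasSum_weil h he (isTest_dilated hφ one_pos)).summable.norm.congr fun ρ => by
    rw [zeroCoef, testTransform_dilated_one]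

theorem norm_zeroTerm_le (hX : IsSelfDual X) (φ : ℝ → ℂ) {θ x : ℝ}
    (hθ : ∀ ρ, X ρ = 0 → ρ.re ≤ θ) (hx : 1 ≤ x) (ρ : ℂ) :
    ‖zeroCoef X φ ρ * (x : ℂ) ^ ρ‖ ≤ x ^ θ * ‖zeroCoef X φ ρ‖ := by
  rw [norm_mul, mul_comm (x ^ θ), norm_cpow_eq_rpow_re_of_pos (by linarith)]
  by_cases hm : fMult X ρ = 0
  · simp [zeroCoef, hm]
  exact mul_le_mul_of_nonneg_left
    (Real.rpow_le_rpow_of_exponent_le hx (hθ ρ (hX.mult_ne_zero_iff.1 hm))) (norm_nonneg _)

theorem norm_zeroPart_le (hX : IsSelfDual X) (hs : Summable fun ρ => ‖zeroCoef X φ ρ‖)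
    {θ x : ℝ} (hθ : ∀ ρ, X ρ = 0 → ρ.re ≤ θ) (hx : 1 ≤ x) :
    ‖zeroPart X φ x‖ ≤ x ^ θ * ∑' ρ, ‖zeroCoef X φ ρ‖ :=
  tsum_of_norm_bounded (hs.hasSum.mul_left _) (norm_zeroTerm_le hX φ hθ hx)

/-- The explicit formula at a dilate. -/
theorem exists_smoothSum_sub_le (h : HasFunctionalEquation a m E lam mu Q omega)
    (he : HasEulerProduct a) (hφ : IsCutoff φ) : ∃ K X₀ : ℝ, 0 ≤ K ∧ 1 ≤ X₀ ∧ ∀ x : ℝ, X₀ ≤ x →
      ‖smoothSum a φ x - ((m : ℂ) * x * mellin φ 1 - zeroPart (xiF m E lam mu Q omega) φ x)‖ ≤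
        K * √x := by
  obtain ⟨c, b, hc, hcb, hz⟩ := hφ.exists_bounds
  obtain ⟨K, hK⟩ : ∃ K, K = (∫ t : ℝ, ‖mellin φ (((1 / 2 : ℝ) : ℂ) + t * I) *
      (archWeightF lam mu Q t : ℂ)‖) / (2 * π) := ⟨_, rfl⟩
  have hK0 : 0 ≤ K := hK ▸ div_nonneg (integral_nonneg fun t => norm_nonneg _) (by positivity)
  refine ⟨m * ‖mellin φ 0‖ + K, max 1 (1 / c + 1), by positivity, le_max_left _ _, fun x hx => ?_⟩
  have hx1 : 1 ≤ x := le_trans (le_max_left _ _) hx
  have hxc : 1 / c < x := by linarith [le_max_right 1 (1 / c + 1), hx]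
  have hx0 : 0 < x := by linarith
  have hsum := FA.SelbergWeil.hasSum_weil h he (isTest_dilated hφ hx0)
  simp only [testTransform_dilated φ hx0] at hsum
  have hzp : HasSum (fun ρ : ℂ => (fMult (xiF m E lam mu Q omega) ρ : ℂ) *
      ((x : ℂ) ^ ρ * mellin φ ρ)) (zeroPart (xiF m E lam mu Q omega) φ x) := by
    rw [← show ∑' ρ, (fMult (xiF m E lam mu Q omega) ρ : ℂ) * ((x : ℂ) ^ ρ * mellin φ ρ) =
      zeroPart (xiF m E lam mu Q omega) φ x from tsum_congr fun ρ => by rw [zeroCoef]; ring]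
    exact hsum.summable.hasSum
  have heq := hzp.unique hsum
  rw [FA.SelbergWeil.weilSide] at heq
  simp only [testTransform_dilated φ hx0, cpow_zero, cpow_one, one_mul] at heq
  have hpr : ∑' n : ℕ, (lamF a n * dilated φ x (Real.log n) +
      conj (lamF a n) * dilated φ x (-Real.log n)) / (√n : ℂ) = smoothSum a φ x := by
    refine tsum_congr fun n => ?_
    rcases eq_or_ne n 0 with rfl | hn
    · simp
    have hn0 : (0 : ℝ) < n := by exact_mod_cast Nat.pos_of_ne_zero hn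
    have hn1 : (1 : ℝ) ≤ n := by exact_mod_cast Nat.one_le_iff_ne_zero.2 hn
    have hs : cexp (((Real.log n : ℝ) : ℂ) / 2) = (√n : ℂ) := by
      rw [Real.sqrt_eq_rpow, Real.rpow_def_of_pos hn0, ofReal_exp]
      push_cast
      ring_nf
    have hneg : φ (Real.exp (-Real.log n) / x) = 0 := by
      refine hz _ (Or.inl ?_)
      rw [Real.exp_neg, Real.exp_log hn0, div_lt_iff₀ hx0]
      rw [div_lt_iff₀ hc] at hxc
      nlinarith [inv_le_one_of_one_le₀ hn1]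
    rw [dilated, dilated, hneg, mul_zero, mul_zero, add_zero, Real.exp_log hn0, hs]
    have hne : (√n : ℂ) ≠ 0 := ofReal_ne_zero.2 (Real.sqrt_pos.2 hn0).ne'
    field_simp
  rw [hpr] at heq
  have harch : ‖(∫ t : ℝ, (x : ℂ) ^ (((1 / 2 : ℝ) : ℂ) + t * I) *
      mellin φ (((1 / 2 : ℝ) : ℂ) + t * I) * (archWeightF lam mu Q t : ℂ)) / (2 * π)‖ ≤
      √x * K := by
    rw [norm_div, norm_mul, Complex.norm_ofNat, Complex.norm_real,
      Real.norm_of_nonneg Real.pi_pos.le, hK, mul_div_assoc']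
    refine div_le_div_of_nonneg_right ?_ (by positivity)
    rw [← integral_const_mul]
    refine (norm_integral_le_integral_norm _).trans (le_of_eq
      (integral_congr_ae (Eventually.of_forall fun t => ?_)))
    simp only [norm_mul, mul_assoc, norm_cpow_eq_rpow_re_of_pos hx0]
    rw [show (((1 / 2 : ℝ) : ℂ) + t * I).re = 1 / 2 by simp, Real.sqrt_eq_rpow]
  generalize (∫ t : ℝ, (x : ℂ) ^ (((1 / 2 : ℝ) : ℂ) + t * I) *
    mellin φ (((1 / 2 : ℝ) : ℂ) + t * I) * (archWeightF lam mu Q t : ℂ)) / (2 * π) = A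
    at heq harch
  rw [show smoothSum a φ x - ((m : ℂ) * x * mellin φ 1 - zeroPart (xiF m E lam mu Q omega) φ x) =
    (m : ℂ) * mellin φ 0 + A by rw [heq]; ring]
  refine (norm_add_le _ _).trans ?_
  rw [add_mul, norm_mul, Complex.norm_natCast]
  exact add_le_add (le_mul_of_one_le_right (by positivity) (Real.one_le_sqrt.2 hx1))
    (harch.trans_eq (mul_comm _ _))

/-- If all zeros have `re < 1` their part is `o x`. -/
theorem tendsto_zeroPart (hX : IsSelfDual X) (hs : Summable fun ρ => ‖zeroCoef X φ ρ‖)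
    (hlt : ∀ ρ, X ρ = 0 → ρ.re < 1) :
    Tendsto (fun x : ℝ => zeroPart X φ x / x) atTop (𝓝 0) := by
  have hlim : Tendsto (fun x : ℝ => ∑' ρ, zeroCoef X φ ρ * (x : ℂ) ^ ρ / (x : ℂ)) atTop
      (𝓝 (∑' _ρ : ℂ, (0 : ℂ))) := by
    refine tendsto_tsum_of_dominated_convergence hs (fun ρ => ?_) ?_
    · by_cases hm : fMult X ρ = 0
      · simp [zeroCoef, hm]
      have hρ := hlt ρ (hX.mult_ne_zero_iff.1 hm)
      rw [tendsto_zero_iff_norm_tendsto_zero]
      have h2 : Tendsto (fun x : ℝ => ‖zeroCoef X φ ρ‖ * x ^ (-(1 - ρ.re))) atTop (𝓝 0) := by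
        simpa using (tendsto_rpow_neg_atTop (show 0 < 1 - ρ.re by linarith)).const_mul _
      refine h2.congr' ?_
      filter_upwards [eventually_gt_atTop 0] with x hx
      rw [norm_div, norm_mul, norm_cpow_eq_rpow_re_of_pos hx, Complex.norm_real,
        Real.norm_of_nonneg hx.le, mul_div_assoc, neg_sub, Real.rpow_sub_one hx.ne']
    · filter_upwards [eventually_ge_atTop 1] with x hx ρ
      rw [norm_div, Complex.norm_real, Real.norm_of_nonneg (by linarith), div_le_iff₀ (by linarith)]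
      refine (norm_zeroTerm_le hX φ (fun ρ hρ => (hlt ρ hρ).le) hx ρ).trans (le_of_eq ?_)
      rw [Real.rpow_one, mul_comm]
  simpa [zeroPart, tsum_div_const] using hlim

end FA.SelbergPNT

end
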