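import Fermat.Agent.SelbergWeil.Main
import Mathlib.Analysis.MellinTransform
import Mathlib.Analysis.Calculus.BumpFunction.InnerProduct
import Mathlib.MeasureTheory.Function.JacobianOneDim

/-!
# Cut-offs and their Mellin transforms

`φ` of class `C²` with compact support in `(0, ∞)` is carried by `y = e^u / x` to a test function
whose transform is `x ^ s` times the Mellin transform of `φ`.
-/

set_option autoImplicit false

noncomputable section

open Complex MeasureTheory Filter Topology Set
open scoped Real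
open FA.WeilExplicit (IsTest testTransform)

namespace FA.SelbergPNT

/-- `C²`, with compact support in `(0, ∞)`. -/
def IsCutoff (φ : ℝ → ℂ) : Prop :=
  ContDiff ℝ 2 φ ∧ HasCompactSupport φ ∧ tsupport φ ⊆ Ioi 0

/-- `exp (u / 2) φ (exp u / x)`. -/
def dilated (φ : ℝ → ℂ) (x u : ℝ) : ℂ := cexp (u / 2) * φ (Real.exp u / x)

variable {φ : ℝ → ℂ}

theorem IsCutoff.exists_bounds (h : IsCutoff φ) :
    ∃ a b : ℝ, 0 < a ∧ a ≤ b ∧ ∀ y : ℝ, y < a ∨ b < y → φ y = 0 := by
  rcases (tsupport φ).eq_empty_or_nonempty with he | hne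
  · exact ⟨1, 1, one_pos, le_rfl,
      fun y _ => image_eq_zero_of_notMem_tsupport (by rw [he]; simp)⟩
  obtain ⟨a, ha, hmin⟩ := h.2.1.isCompact.exists_isMinOn hne continuous_id.continuousOn
  obtain ⟨b, hb, hmax⟩ := h.2.1.isCompact.exists_isMaxOn hne continuous_id.continuousOn
  refine ⟨a, b, h.2.2 ha, hmin hb, fun y hy => image_eq_zero_of_notMem_tsupport fun hmem => ?_⟩
  rcases hy with hy | hy
  · exact absurd (hmin hmem) (not_le.2 hy)
  · exact absurd (hmax hmem) (not_le.2 hy)

theorem IsCutoff.eq_zero_of_nonpos (h : IsCutoff φ) {y : ℝ} (hy : y ≤ 0) : φ y = 0 :=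
  image_eq_zero_of_notMem_tsupport fun hmem => absurd (h.2.2 hmem : 0 < y) (not_lt.2 hy)

theorem isTest_dilated (h : IsCutoff φ) {x : ℝ} (hx : 0 < x) : IsTest (dilated φ x) := by
  obtain ⟨a, b, ha, hab, hz⟩ := h.exists_bounds
  refine ⟨((Complex.ofRealCLM.contDiff.div_const 2).cexp).mul
    (h.1.comp (Real.contDiff_exp.div_const x)),
    HasCompactSupport.intro (isCompact_Icc (a := Real.log (a * x)) (b := Real.log (b * x)))
      fun u hu => ?_⟩
  rw [dilated, hz, mul_zero]
  rw [mem_Icc, not_and_or, not_le, not_le] at hu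
  rcases hu with hu | hu
  · left
    rw [div_lt_iff₀ hx, ← Real.lt_log_iff_exp_lt (by positivity)]
    exact hu
  · right
    rw [lt_div_iff₀ hx, ← Real.log_lt_iff_lt_exp (mul_pos (ha.trans_le hab) hx)]
    exact hu

/-- The transform of the undilated cut-off is the Mellin transform. -/
theorem testTransform_dilated_one (φ : ℝ → ℂ) (s : ℂ) :
    testTransform (dilated φ 1) s = mellin φ s := by
  have h := integral_image_eq_integral_abs_deriv_smul MeasurableSet.univ
    (fun u _ => (Real.hasDerivAt_exp u).hasDerivWithinAt) Real.exp_injective.injOn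
    (fun t : ℝ => (t : ℂ) ^ (s - 1) • φ t)
  rw [image_univ, Real.range_exp, setIntegral_univ] at h
  rw [mellin, h, testTransform]
  refine integral_congr_ae (Eventually.of_forall fun u => ?_)
  have e : ((Real.exp u : ℝ) : ℂ) ^ (s - 1) = cexp ((u : ℂ) * (s - 1)) := by
    rw [cpow_def_of_ne_zero (ofReal_ne_zero.2 (Real.exp_pos u).ne'),
      ← Complex.ofReal_log (Real.exp_pos u).le, Real.log_exp]
  simp only [dilated, div_one, Complex.real_smul, smul_eq_mul, e, abs_of_pos (Real.exp_pos u)]
  rw [ofReal_exp, mul_right_comm, ← Complex.exp_add, ← mul_assoc, ← Complex.exp_add]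
  ring_nf

/-- **The transform of a dilate.** -/
theorem testTransform_dilated (φ : ℝ → ℂ) {x : ℝ} (hx : 0 < x) (s : ℂ) :
    testTransform (dilated φ x) s = (x : ℂ) ^ s * mellin φ s := by
  rw [← testTransform_dilated_one, testTransform, testTransform, ← integral_const_mul,
    ← integral_add_right_eq_self
      (fun u : ℝ => dilated φ x u * cexp ((s - 1 / 2) * (u : ℂ))) (Real.log x)]
  refine integral_congr_ae (Eventually.of_forall fun u => ?_)
  have e : Real.exp (u + Real.log x) / x = Real.exp u := by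
    rw [Real.exp_add, Real.exp_log hx, mul_div_assoc, div_self hx.ne', mul_one]
  simp only [dilated, e, div_one]
  rw [cpow_def_of_ne_zero (ofReal_ne_zero.2 hx.ne'), ← Complex.ofReal_log hx.le]
  rw [mul_right_comm, ← Complex.exp_add, mul_right_comm (cexp _) (φ _), ← Complex.exp_add,
    ← mul_assoc, ← Complex.exp_add]
  congr 2
  push_cast
  ring

/-- A cut-off whose Mellin transform is nonzero at a given point. -/
theorem exists_mellin_ne_zero (s : ℂ) : ∃ φ : ℝ → ℂ, IsCutoff φ ∧ mellin φ s ≠ 0 := by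
  obtain ⟨δ, hδ⟩ : ∃ δ : ℝ, δ = min (1 / 2) (1 / (4 * (1 + |s.im|))) := ⟨_, rfl⟩
  have hδ0 : 0 < δ := hδ ▸ lt_min (by norm_num) (by positivity)
  have hδ2 : δ ≤ 1 / 2 := hδ ▸ min_le_left _ _
  obtain ⟨f, hout⟩ : ∃ f : ContDiffBump (1 : ℝ), f.rOut = δ :=
    ⟨⟨δ / 2, δ, by linarith, by linarith⟩, rfl⟩
  have hcut : IsCutoff fun y => ((f y : ℝ) : ℂ) := by
    refine ⟨Complex.ofRealCLM.contDiff.comp f.contDiff, f.hasCompactSupport.comp_left ofReal_zero,
      (tsupport_comp_subset ofReal_zero _).trans ?_⟩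
    rw [f.tsupport_eq, hout]
    intro y hy
    rw [Metric.mem_closedBall, Real.dist_eq, abs_le] at hy
    exact mem_Ioi.2 (by linarith [hy.1])
  refine ⟨_, hcut, fun h0 => ?_⟩
  have hi := FA.WeilExplicit.integrable_mul_exp (isTest_dilated hcut one_pos).continuous
    (isTest_dilated hcut one_pos).2 (s - 1 / 2)
  obtain ⟨F, hF⟩ : ∃ F : ℝ → ℂ, F = fun u =>
      dilated (fun y => ((f y : ℝ) : ℂ)) 1 u * cexp ((s - 1 / 2) * (u : ℂ)) := ⟨_, rfl⟩
  have hre : ∀ u : ℝ, (F u).re = f (Real.exp u) * (Real.exp (s.re * u) * Real.cos (s.im * u)) :=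
    fun u => by
    rw [hF]
    simp only [dilated, div_one]
    rw [mul_comm (cexp _) ((f _ : ℝ) : ℂ), mul_assoc, ← Complex.exp_add, re_ofReal_mul,
      show (u : ℂ) / 2 + (s - 1 / 2) * u = s * u by ring, Complex.exp_re]
    simp
  have hnn : ∀ u : ℝ, 0 ≤ (F u).re := fun u => by
    rw [hre]
    by_cases hz : f (Real.exp u) = 0
    · simp [hz]
    refine mul_nonneg f.nonneg (mul_nonneg (Real.exp_pos _).le (Real.cos_nonneg_of_mem_Icc ?_))
    have hmem : Real.exp u ∈ Metric.closedBall (1 : ℝ) δ := by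
      rw [← hout, ← f.tsupport_eq]
      exact subset_tsupport _ hz
    rw [Metric.mem_closedBall, Real.dist_eq, abs_le] at hmem
    have h1 : |u| ≤ 2 * δ := by
      have hlo := Real.add_one_le_exp u
      have hhi := Real.add_one_le_exp (-u)
      rw [Real.exp_neg] at hhi
      have : (Real.exp u)⁻¹ ≤ 1 + 2 * δ := by
        rw [inv_le_iff_one_le_mul₀ (Real.exp_pos u)]
        nlinarith [hmem.1, sq_nonneg δ]
      rw [abs_le]
      constructor <;> linarith [hmem.2]
    have h2 : |s.im * u| ≤ 1 / 2 := by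
      rw [abs_mul]
      have h3 : δ * (4 * (1 + |s.im|)) ≤ 1 := by
        rw [← le_div_iff₀ (by positivity)]
        exact hδ ▸ min_le_right _ _
      nlinarith [mul_le_mul_of_nonneg_left h1 (abs_nonneg s.im), abs_nonneg s.im]
    constructor <;> linarith [abs_le.1 h2, Real.pi_gt_three]
  have hpos : 0 < ∫ u : ℝ, (F u).re := by
    refine (Complex.continuous_re.comp
      (hF ▸ ((isTest_dilated hcut one_pos).continuous.mul (by fun_prop)))
      ).integral_pos_of_hasCompactSupport_nonneg_nonzero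
      (f := fun u => (F u).re) (x := 0) ?_ hnn ?_
    · exact (hF ▸ (isTest_dilated hcut one_pos).2.mul_right :
        HasCompactSupport F).comp_left (g := Complex.re) rfl
    · rw [hre]
      simp [f.one_of_mem_closedBall (Metric.mem_closedBall_self f.rIn_pos.le)]
  rw [← testTransform_dilated_one, testTransform] at h0
  have := (Complex.reCLM.integral_comp_comm (hF ▸ hi : Integrable F))
  simp only [Complex.reCLM_apply] at this
  rw [this, hF, h0] at hpos
  exact lt_irrefl _ hpos

end FA.SelbergPNT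

end
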